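import Mathlib
import Fermat.Prelude.Def_GaloisRep_DeformationRingData
import Fermat.Prelude.Def_GaloisRep_DeformationCondition

/-!
Dictionary between `GaloisRepAdic A` and `2 × 2` matrix valued functions on the Galois group.
-/

set_option autoImplicit false
set_option linter.unusedSectionVars false
set_option linter.style.haveILetI false

open scoped TensorProduct

namespace Fermat.Agent.DefRing

open IsLocalRing Module

/-- the absolute Galois group of `ℚ` -/
abbrev Γ := AlgebraicClosure ℚ ≃ₐ[ℚ] AlgebraicClosure ℚ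

section

variable {A : Type} [CommRing A] [IsLocalRing A]

/-- `ρ` is given by the matrices `r σ` in some basis. -/
def Realizes (ρ : GaloisRepAdic A) (r : Γ → Matrix (Fin 2) (Fin 2) A) : Prop :=
  ∃ b : Basis (Fin 2) A ρ.V, ∀ σ, LinearMap.toMatrix b b (ρ.ρ σ) = r σ

theorem exists_realizes (ρ : GaloisRepAdic A) : ∃ r, Realizes ρ r :=
  ⟨_, finBasisOfFinrankEq A ρ.V ρ.finrank_eq, fun _ => rfl⟩

theorem Realizes.isEquiv {ρ ρ' : GaloisRepAdic A} {r : Γ → Matrix (Fin 2) (Fin 2) A}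
    (h : Realizes ρ r) (h' : Realizes ρ' r) : ρ.IsEquiv ρ' := by
  obtain ⟨b, hb⟩ := h
  obtain ⟨b', hb'⟩ := h'
  refine ⟨⟨b.equiv b' (Equiv.refl _), fun σ x => ?_⟩⟩
  have h1 : (b.equiv b' (Equiv.refl _)).toLinearMap ∘ₗ (ρ.ρ σ) =
      (ρ'.ρ σ) ∘ₗ (b.equiv b' (Equiv.refl _)).toLinearMap := by
    refine b.ext fun j => ?_
    apply b'.repr.injective
    ext i
    simp only [LinearMap.comp_apply, LinearEquiv.coe_coe, Basis.equiv_apply, Equiv.refl_apply]
    have h2 : b'.repr (ρ'.ρ σ (b' j)) i = r σ i j := by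
      rw [← hb', LinearMap.toMatrix_apply]
    have h3 : b.repr (ρ.ρ σ (b j)) i = r σ i j := by
      rw [← hb, LinearMap.toMatrix_apply]
    rw [h2, ← h3]
    have h4 : ∀ y : ρ.V, b'.repr (b.equiv b' (Equiv.refl _) y) = b.repr y := by
      intro y
      ext k
      simp [Basis.equiv]
    rw [h4]
  exact LinearMap.congr_fun h1 x

theorem Realizes.of_isEquiv {ρ ρ' : GaloisRepAdic A} {r : Γ → Matrix (Fin 2) (Fin 2) A}
    (h : Realizes ρ r) (e : ρ.IsEquiv ρ') : Realizes ρ' r := by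
  obtain ⟨b, hb⟩ := h
  obtain ⟨e⟩ := e
  refine ⟨b.map e.toLinearEquiv, fun σ => ?_⟩
  ext i j
  rw [← hb, LinearMap.toMatrix_apply, LinearMap.toMatrix_apply, Basis.map_apply, ← e.map_apply]
  simp

theorem Realizes.baseChange {B : Type} [CommRing B] [IsLocalRing B] (φ : A →+* B)
    (hφ : IsLocalHom φ) {ρ : GaloisRepAdic A} {r : Γ → Matrix (Fin 2) (Fin 2) A}
    (h : Realizes ρ r) : Realizes (ρ.baseChangeAlong φ hφ) (fun σ => (r σ).map φ) := by
  obtain ⟨b, hb⟩ := h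
  letI : Algebra A B := φ.toAlgebra
  refine ⟨(Algebra.TensorProduct.basis B b : Basis (Fin 2) B (B ⊗[A] ρ.V)), fun σ => ?_⟩
  refine (LinearMap.toMatrix_baseChange B (ρ.ρ σ) b b).trans ?_
  rw [hb]
  rfl

theorem Realizes.conj {ρ : GaloisRepAdic A} {r : Γ → Matrix (Fin 2) (Fin 2) A}
    (h : Realizes ρ r) (P : Matrix (Fin 2) (Fin 2) A) (hP : IsUnit P.det) :
    Realizes ρ (fun σ => P⁻¹ * r σ * P) := by
  obtain ⟨b, hb⟩ := h
  refine ⟨b.map (Matrix.toLinearEquiv b P hP), fun σ => ?_⟩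
  set b' := b.map (Matrix.toLinearEquiv b P hP) with hb'
  have h1 : b.toMatrix b' = P := by
    ext i j
    rw [Basis.toMatrix_apply, hb', Basis.map_apply, Matrix.toLinearEquiv_apply]
    rw [Matrix.toLin_self]
    simp only [map_sum, _root_.map_smul, Basis.repr_self, Finsupp.coe_finsetSum,
      Finsupp.coe_smul, Finset.sum_apply, Pi.smul_apply, smul_eq_mul, Finsupp.single_apply,
      mul_ite, mul_one, mul_zero]
    rw [Finset.sum_ite_eq' Finset.univ i]
    simp
  have h2 : P * LinearMap.toMatrix b' b' (ρ.ρ σ) = r σ * P := by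
    rw [← hb, ← h1, basis_toMatrix_mul_linearMap_toMatrix, linearMap_toMatrix_mul_basis_toMatrix]
  show _ = P⁻¹ * r σ * P
  rw [Matrix.mul_assoc, ← h2, ← Matrix.mul_assoc, Matrix.nonsing_inv_mul _ hP, Matrix.one_mul]

theorem Realizes.exists_conj {ρ : GaloisRepAdic A} {r r' : Γ → Matrix (Fin 2) (Fin 2) A}
    (h : Realizes ρ r) (h' : Realizes ρ r') :
    ∃ P : Matrix (Fin 2) (Fin 2) A, IsUnit P.det ∧ ∀ σ, P * r' σ = r σ * P := by
  obtain ⟨b, hb⟩ := h
  obtain ⟨b', hb'⟩ := h'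
  refine ⟨b.toMatrix b', ?_, fun σ => ?_⟩
  · have h1 : b.toMatrix b' * b'.toMatrix b = 1 := Basis.toMatrix_mul_toMatrix_flip b b'
    have h2 := congrArg Matrix.det h1
    rw [Matrix.det_mul, Matrix.det_one] at h2
    exact IsUnit.of_mul_eq_one _ h2
  · rw [← hb, ← hb', basis_toMatrix_mul_linearMap_toMatrix, linearMap_toMatrix_mul_basis_toMatrix]

/-- continuity of a matrix valued function -/
def MatCont (r : Γ → Matrix (Fin 2) (Fin 2) A) : Prop :=
  ∀ n : ℕ, ∃ L : IntermediateField ℚ (AlgebraicClosure ℚ), FiniteDimensional ℚ L ∧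
    ∀ σ : Γ, (∀ x ∈ L, σ x = x) → ∀ i j, (r σ - 1) i j ∈ maximalIdeal A ^ n

theorem Realizes.map_one {ρ : GaloisRepAdic A} {r : Γ → Matrix (Fin 2) (Fin 2) A}
    (h : Realizes ρ r) : r 1 = 1 := by
  obtain ⟨b, hb⟩ := h
  rw [← hb, _root_.map_one]
  exact LinearMap.toMatrix_one b

theorem Realizes.map_mul {ρ : GaloisRepAdic A} {r : Γ → Matrix (Fin 2) (Fin 2) A}
    (h : Realizes ρ r) (σ τ : Γ) : r (σ * τ) = r σ * r τ := by
  obtain ⟨b, hb⟩ := h
  rw [← hb, ← hb, ← hb, _root_.map_mul]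
  exact LinearMap.toMatrix_mul b _ _

theorem repr_mem_of_mem_smul_top {M : Type} [AddCommGroup M] [Module A M] (b : Basis (Fin 2) A M)
    (I : Ideal A) {x : M} (hx : x ∈ I • (⊤ : Submodule A M)) (i : Fin 2) : b.repr x i ∈ I := by
  refine Submodule.smul_induction_on (p := fun x => b.repr x i ∈ I) hx ?_ ?_
  · intro a ha y _
    rw [_root_.map_smul, Finsupp.smul_apply, smul_eq_mul]
    exact Ideal.mul_mem_right _ _ ha
  · intro x y hx hy
    rw [map_add, Finsupp.add_apply]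
    exact Ideal.add_mem _ hx hy

theorem Realizes.matCont {ρ : GaloisRepAdic A} {r : Γ → Matrix (Fin 2) (Fin 2) A}
    (h : Realizes ρ r) : MatCont r := by
  obtain ⟨b, hb⟩ := h
  intro n
  obtain ⟨L, hL, h1⟩ := ρ.isAdicContinuous n
  refine ⟨L, hL, fun σ hσ i j => ?_⟩
  have h2 := repr_mem_of_mem_smul_top b _ (h1 σ hσ (b j)) i
  have h3 : (r σ - 1) i j = b.repr (ρ.ρ σ (b j) - b j) i := by
    rw [← hb, Matrix.sub_apply, LinearMap.toMatrix_apply, map_sub, Finsupp.sub_apply,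
      Basis.repr_self, Matrix.one_apply, Finsupp.single_apply]
    simp only [eq_comm]
  rw [h3]
  exact h2

theorem exists_of_matrices (r : Γ → Matrix (Fin 2) (Fin 2) A) (h1 : r 1 = 1)
    (hmul : ∀ σ τ, r (σ * τ) = r σ * r τ) (hc : MatCont r) :
    ∃ ρ : GaloisRepAdic A, Realizes ρ r := by
  let ρ' : Γ →* Module.End A (Fin 2 → A) :=
    { toFun := fun σ => Matrix.toLin' (r σ)
      map_one' := by rw [h1]; exact Matrix.toLin'_one
      map_mul' := fun σ τ => by rw [hmul]; exact Matrix.toLin'_mul _ _ }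
  refine ⟨{ V := Fin 2 → A, finrank_eq := by simp, ρ := ρ', isAdicContinuous := ?_ }, ?_⟩
  · intro n
    obtain ⟨L, hL, hL1⟩ := hc n
    refine ⟨L, hL, fun σ hσ v => ?_⟩
    have h2 : ρ' σ v - v = (r σ - 1).mulVec v := by
      show Matrix.toLin' (r σ) v - v = _
      rw [Matrix.toLin'_apply, Matrix.sub_mulVec, Matrix.one_mulVec]
    rw [h2]
    have h3 : (r σ - 1).mulVec v = ∑ i, ((r σ - 1).mulVec v i) • (Pi.single i (1 : A) : Fin 2 → A) := by
      ext k
      simp [Finset.sum_apply, Pi.single_apply]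
    rw [h3]
    refine Submodule.sum_mem _ fun i _ => Submodule.smul_mem_smul ?_ trivial
    rw [Matrix.mulVec, dotProduct]
    exact Ideal.sum_mem _ fun j _ => Ideal.mul_mem_right _ _ (hL1 σ hσ i j)
  · refine ⟨Pi.basisFun A (Fin 2), fun σ => ?_⟩
    show LinearMap.toMatrix (Pi.basisFun A (Fin 2)) (Pi.basisFun A (Fin 2)) (Matrix.toLin' (r σ)) = _
    rw [LinearMap.toMatrix_eq_toMatrix', LinearMap.toMatrix'_toLin']

end

/-! ### residual representations -/

section Residual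

variable {k : Type} [Field k]

/-- `ρ` is given by the matrices `r σ` in some basis. -/
def RealizesRes (ρ : ResidualGaloisRep k) (r : Γ → Matrix (Fin 2) (Fin 2) k) : Prop :=
  ∃ b : Basis (Fin 2) k ρ.V, ∀ σ, LinearMap.toMatrix b b (ρ.ρ σ) = r σ

theorem exists_realizesRes (ρ : ResidualGaloisRep k) : ∃ r, RealizesRes ρ r :=
  ⟨_, finBasisOfFinrankEq k ρ.V ρ.finrank_eq, fun _ => rfl⟩

theorem RealizesRes.isEquiv {ρ ρ' : ResidualGaloisRep k} {r : Γ → Matrix (Fin 2) (Fin 2) k}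
    (h : RealizesRes ρ r) (h' : RealizesRes ρ' r) : ρ.IsEquiv ρ' := by
  obtain ⟨b, hb⟩ := h
  obtain ⟨b', hb'⟩ := h'
  refine ⟨⟨b.equiv b' (Equiv.refl _), fun σ x => ?_⟩⟩
  have h1 : (b.equiv b' (Equiv.refl _)).toLinearMap ∘ₗ (ρ.ρ σ) =
      (ρ'.ρ σ) ∘ₗ (b.equiv b' (Equiv.refl _)).toLinearMap := by
    refine b.ext fun j => ?_
    apply b'.repr.injective
    ext i
    simp only [LinearMap.comp_apply, LinearEquiv.coe_coe, Basis.equiv_apply, Equiv.refl_apply]
    have h2 : b'.repr (ρ'.ρ σ (b' j)) i = r σ i j := by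
      rw [← hb', LinearMap.toMatrix_apply]
    have h3 : b.repr (ρ.ρ σ (b j)) i = r σ i j := by
      rw [← hb, LinearMap.toMatrix_apply]
    rw [h2, ← h3]
    have h4 : ∀ y : ρ.V, b'.repr (b.equiv b' (Equiv.refl _) y) = b.repr y := by
      intro y
      ext k
      simp [Basis.equiv]
    rw [h4]
  exact LinearMap.congr_fun h1 x

theorem RealizesRes.of_isEquiv {ρ ρ' : ResidualGaloisRep k} {r : Γ → Matrix (Fin 2) (Fin 2) k}
    (h : RealizesRes ρ r) (e : ρ.IsEquiv ρ') : RealizesRes ρ' r := by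
  obtain ⟨b, hb⟩ := h
  obtain ⟨e⟩ := e
  refine ⟨b.map e.toLinearEquiv, fun σ => ?_⟩
  ext i j
  rw [← hb, LinearMap.toMatrix_apply, LinearMap.toMatrix_apply, Basis.map_apply, ← e.map_apply]
  simp

theorem RealizesRes.exists_conj {ρ : ResidualGaloisRep k} {r r' : Γ → Matrix (Fin 2) (Fin 2) k}
    (h : RealizesRes ρ r) (h' : RealizesRes ρ r') :
    ∃ P : Matrix (Fin 2) (Fin 2) k, IsUnit P.det ∧ ∀ σ, P * r' σ = r σ * P := by
  obtain ⟨b, hb⟩ := h
  obtain ⟨b', hb'⟩ := h'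
  refine ⟨b.toMatrix b', ?_, fun σ => ?_⟩
  · have h1 : b.toMatrix b' * b'.toMatrix b = 1 := Basis.toMatrix_mul_toMatrix_flip b b'
    have h2 := congrArg Matrix.det h1
    rw [Matrix.det_mul, Matrix.det_one] at h2
    exact IsUnit.of_mul_eq_one _ h2
  · rw [← hb, ← hb', basis_toMatrix_mul_linearMap_toMatrix, linearMap_toMatrix_mul_basis_toMatrix]

theorem RealizesRes.map_one {ρ : ResidualGaloisRep k} {r : Γ → Matrix (Fin 2) (Fin 2) k}
    (h : RealizesRes ρ r) : r 1 = 1 := by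
  obtain ⟨b, hb⟩ := h
  rw [← hb, _root_.map_one]
  exact LinearMap.toMatrix_one b

theorem RealizesRes.map_mul {ρ : ResidualGaloisRep k} {r : Γ → Matrix (Fin 2) (Fin 2) k}
    (h : RealizesRes ρ r) (σ τ : Γ) : r (σ * τ) = r σ * r τ := by
  obtain ⟨b, hb⟩ := h
  rw [← hb, ← hb, ← hb, _root_.map_mul]
  exact LinearMap.toMatrix_mul b _ _

theorem RealizesRes.baseChange (k' : Type) [Field k'] [Algebra k k']
    {ρ : ResidualGaloisRep k} {r : Γ → Matrix (Fin 2) (Fin 2) k}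
    (h : RealizesRes ρ r) : RealizesRes (ρ.baseChange k') (fun σ => (r σ).map (algebraMap k k')) := by
  obtain ⟨b, hb⟩ := h
  refine ⟨(Algebra.TensorProduct.basis k' b : Basis (Fin 2) k' (k' ⊗[k] ρ.V)), fun σ => ?_⟩
  refine (LinearMap.toMatrix_baseChange k' (ρ.ρ σ) b b).trans ?_
  rw [hb]

theorem RealizesRes.baseChangeAlong {k' : Type} [Field k'] (φ : k →+* k')
    {ρ : ResidualGaloisRep k} {r : Γ → Matrix (Fin 2) (Fin 2) k}
    (h : RealizesRes ρ r) : RealizesRes (ρ.baseChangeAlong φ) (fun σ => (r σ).map φ) := by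
  letI : Algebra k k' := φ.toAlgebra
  exact RealizesRes.baseChange k' h

theorem Realizes.residual {A : Type} [CommRing A] [IsLocalRing A]
    {ρ : GaloisRepAdic A} {r : Γ → Matrix (Fin 2) (Fin 2) A}
    (h : Realizes ρ r) : RealizesRes ρ.residual (fun σ => (r σ).map (residue A)) := by
  obtain ⟨b, hb⟩ := h
  refine ⟨(Algebra.TensorProduct.basis (ResidueField A) b : Basis (Fin 2) (ResidueField A)
    (ResidueField A ⊗[A] ρ.V)), fun σ => ?_⟩
  refine (LinearMap.toMatrix_baseChange (ResidueField A) (ρ.ρ σ) b b).trans ?_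
  rw [hb]
  rfl

theorem Realizes.ofResidual {ρ : ResidualGaloisRep k} {r : Γ → Matrix (Fin 2) (Fin 2) k}
    (h : RealizesRes ρ r) : Realizes (GaloisRepAdic.ofResidualGaloisRep ρ) r := h

/-- normalisation of the residual matrices -/
theorem exists_realizes_of_residual_isEquiv {A : Type} [CommRing A] [IsLocalRing A]
    (ρ : GaloisRepAdic A) {ρ' : ResidualGaloisRep (ResidueField A)}
    {r' : Γ → Matrix (Fin 2) (Fin 2) (ResidueField A)} (h' : RealizesRes ρ' r')
    (e : ρ.residual.IsEquiv ρ') :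
    ∃ r, Realizes ρ r ∧ ∀ σ, (r σ).map (residue A) = r' σ := by
  obtain ⟨r0, hr0⟩ := exists_realizes ρ
  obtain ⟨Pb, hPb, hP⟩ := RealizesRes.exists_conj (hr0.residual.of_isEquiv e) h'
  let P : Matrix (Fin 2) (Fin 2) A := fun i j => Function.surjInv residue_surjective (Pb i j)
  have hPm : P.map (residue A) = Pb := by
    ext i j
    exact Function.surjInv_eq residue_surjective (Pb i j)
  have hPd : IsUnit P.det := by
    have h1 : residue A P.det = Pb.det := by
      rw [← hPm, RingHom.map_det]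
      rfl
    have h2 : IsUnit (residue A P.det) := by rw [h1]; exact hPb
    exact isUnit_of_map_unit (residue A) _ h2
  refine ⟨_, hr0.conj P hPd, fun σ => ?_⟩
  have h3 : P * (P⁻¹ * r0 σ * P) = r0 σ * P := by
    rw [Matrix.mul_assoc P⁻¹, ← Matrix.mul_assoc, Matrix.mul_nonsing_inv _ hPd, Matrix.one_mul]
  have h4 : Pb * (P⁻¹ * r0 σ * P).map (residue A) = Pb * r' σ := by
    rw [hP σ, ← hPm, ← Matrix.map_mul, h3, Matrix.map_mul]
  have h5 := congrArg (fun M => Pb⁻¹ * M) h4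
  simp only [← Matrix.mul_assoc, Matrix.nonsing_inv_mul _ hPb, Matrix.one_mul] at h5
  simpa only [Matrix.mul_assoc] using h5

end Residual

end Fermat.Agent.DefRing
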