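import Mathlib

/-!
Multivariate power series in finitely many variables over a complete noetherian local ring
form a complete (noetherian) local ring.
-/

set_option autoImplicit false
set_option linter.unusedSectionVars false

namespace Fermat.Agent.DefRing

open MvPowerSeries IsLocalRing

section X

variable {σ : Type*} [Finite σ] {R : Type*} [CommRing R]

theorem mem_span_X_pow_of_coeff (n : ℕ) (h : MvPowerSeries σ R)
    (hh : ∀ e : σ →₀ ℕ, e.degree < n → coeff e h = 0) :
    h ∈ (Ideal.span (Set.range (X : σ → MvPowerSeries σ R))) ^ n := by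
  have h0 : truncTotal n h = 0 := by
    ext e
    rw [coeff_truncTotal_eq_ite]
    split_ifs with he
    · simp [hh e he]
    · simp
  have h1 : toAdicCompletionAlgEquiv σ R h ∈
      ((MvPolynomial.idealOfVars σ R) ^ n •
        (⊤ : Submodule (MvPolynomial σ R)
          (AdicCompletion (MvPolynomial.idealOfVars σ R) (MvPolynomial σ R)))) := by
    rw [AdicCompletion.pow_smul_top_eq_ker_eval (MvPolynomial.idealOfVars_fg σ R)]
    rw [LinearMap.mem_ker]
    change ((toAdicCompletion σ R) h).val n = 0
    rw [toAdicCompletion_apply_eq_mk_truncTotal, h0, map_zero]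
  have h2 : h ∈ Submodule.map (toAdicCompletionAlgEquiv σ R).symm.toLinearMap
      ((MvPolynomial.idealOfVars σ R) ^ n •
        (⊤ : Submodule (MvPolynomial σ R)
          (AdicCompletion (MvPolynomial.idealOfVars σ R) (MvPolynomial σ R)))) := by
    refine ⟨_, h1, ?_⟩
    simp only [AlgEquiv.toLinearMap_apply, AlgEquiv.symm_apply_apply]
  rw [Submodule.map_smul''] at h2
  have h3 : h ∈ (MvPolynomial.idealOfVars σ R) ^ n •
      (⊤ : Submodule (MvPolynomial σ R) (MvPowerSeries σ R)) :=
    Submodule.smul_mono le_rfl le_top h2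
  rw [Ideal.smul_top_eq_map, Submodule.restrictScalars_mem, Ideal.map_pow] at h3
  have h4 : Ideal.map (algebraMap (MvPolynomial σ R) (MvPowerSeries σ R))
      (MvPolynomial.idealOfVars σ R) = Ideal.span (Set.range (X : σ → MvPowerSeries σ R)) := by
    rw [MvPolynomial.idealOfVars, Ideal.map_span, ← Set.range_comp]
    congr 2
    ext1 i
    simp [MvPowerSeries.algebraMap_apply']
  rwa [h4] at h3

end X

section

variable {σ : Type*} [Finite σ] {R : Type*} [CommRing R] [IsLocalRing R]

/-- filtration ideal -/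
def filt (σ : Type*) (R : Type*) [CommRing R] [IsLocalRing R] (n : ℕ) :
    Ideal (MvPowerSeries σ R) where
  carrier := {h | ∀ e : σ →₀ ℕ, coeff e h ∈ (maximalIdeal R) ^ (n - e.degree)}
  add_mem' := fun {a b} ha hb e => by
    rw [map_add]; exact Ideal.add_mem _ (ha e) (hb e)
  zero_mem' := fun e => by simp
  smul_mem' := fun c x hx e => by
    classical
    rw [smul_eq_mul, coeff_mul]
    refine Ideal.sum_mem _ fun p hp => Ideal.mul_mem_left _ _ ?_
    refine Ideal.pow_le_pow_right ?_ (hx p.2)
    have : p.2.degree ≤ e.degree := by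
      rw [← Finset.HasAntidiagonal.mem_antidiagonal.mp hp, map_add]
      omega
    omega

theorem mem_filt {n : ℕ} {h : MvPowerSeries σ R} :
    h ∈ filt σ R n ↔ ∀ e : σ →₀ ℕ, coeff e h ∈ (maximalIdeal R) ^ (n - e.degree) := Iff.rfl

theorem filt_mul_le (a b : ℕ) : filt σ R a * filt σ R b ≤ filt σ R (a + b) := by
  classical
  rw [Ideal.mul_le]
  intro x hx y hy e
  rw [coeff_mul]
  refine Ideal.sum_mem _ fun p hp => ?_
  have h1 := Ideal.mul_mem_mul (hx p.1) (hy p.2)
  rw [← pow_add] at h1
  refine Ideal.pow_le_pow_right ?_ h1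
  have : e.degree = p.1.degree + p.2.degree := by
    rw [← Finset.HasAntidiagonal.mem_antidiagonal.mp hp, map_add]
  omega

theorem maximalIdeal_le_filt : maximalIdeal (MvPowerSeries σ R) ≤ filt σ R 1 := by
  intro x hx e
  rcases Nat.eq_zero_or_pos e.degree with h0 | h0
  · rw [h0]
    have : e = 0 := (Finsupp.degree_eq_zero_iff e).mp h0
    subst this
    rw [Nat.sub_zero, pow_one, mem_maximalIdeal, mem_nonunits_iff]
    rw [mem_maximalIdeal, mem_nonunits_iff, isUnit_iff_constantCoeff] at hx
    exact hx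
  · have : 1 - e.degree = 0 := by omega
    rw [this, pow_zero, Ideal.one_eq_top]
    trivial

theorem maximalIdeal_pow_le_filt (n : ℕ) : (maximalIdeal (MvPowerSeries σ R)) ^ n ≤ filt σ R n := by
  induction n with
  | zero =>
    intro x _ e
    simp
  | succ n ih =>
    rw [pow_succ]
    exact (Ideal.mul_mono ih maximalIdeal_le_filt).trans (filt_mul_le n 1)

omit [Finite σ] in
theorem X_mem_maximalIdeal (i : σ) : (X i : MvPowerSeries σ R) ∈ maximalIdeal (MvPowerSeries σ R) := by
  rw [mem_maximalIdeal, mem_nonunits_iff, isUnit_iff_constantCoeff]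
  simp

omit [Finite σ] in
theorem C_mem_maximalIdeal_pow {n : ℕ} {r : R} (hr : r ∈ maximalIdeal R ^ n) :
    (C r : MvPowerSeries σ R) ∈ (maximalIdeal (MvPowerSeries σ R)) ^ n := by
  have h1 : (maximalIdeal R ^ n).map (C : R →+* MvPowerSeries σ R) ≤
      (maximalIdeal (MvPowerSeries σ R)) ^ n := by
    rw [Ideal.map_pow]
    refine Ideal.pow_right_mono ?_ n
    rw [Ideal.map_le_iff_le_comap]
    intro a ha
    rw [Ideal.mem_comap, mem_maximalIdeal, mem_nonunits_iff, isUnit_iff_constantCoeff]
    simpa using ha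
  exact h1 (Ideal.mem_map_of_mem _ hr)

theorem monomial_mem_maximalIdeal_pow {n : ℕ} (e : σ →₀ ℕ) {r : R}
    (hr : r ∈ maximalIdeal R ^ (n - e.degree)) :
    (monomial e r : MvPowerSeries σ R) ∈ (maximalIdeal (MvPowerSeries σ R)) ^ n := by
  have h1 : (monomial e r : MvPowerSeries σ R) = C r * e.prod fun i k => (X i) ^ k := by
    have := MvPowerSeries.monomial_eq (σ := σ) (R := R) e (fun _ => 1)
    simp only [one_pow, Finsupp.prod, Finset.prod_const_one, one_smul] at this
    rw [Finsupp.prod, ← this, ← MvPowerSeries.monomial_zero_eq_C_apply, monomial_mul_monomial]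
    simp
  have h2 : (e.prod fun i k => (X i : MvPowerSeries σ R) ^ k) ∈
      (maximalIdeal (MvPowerSeries σ R)) ^ e.degree := by
    rw [Finsupp.prod, Finsupp.degree_apply, ← Finset.prod_pow_eq_pow_sum]
    exact Ideal.prod_mem_prod fun i _ => Ideal.pow_mem_pow (X_mem_maximalIdeal i) _
  rw [h1]
  have h3 := Ideal.mul_mem_mul (C_mem_maximalIdeal_pow (σ := σ) hr) h2
  rw [← pow_add] at h3
  exact Ideal.pow_le_pow_right (by omega) h3

theorem filt_le_maximalIdeal_pow (n : ℕ) :
    filt σ R n ≤ (maximalIdeal (MvPowerSeries σ R)) ^ n := by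
  intro h hh
  have h1 : h - (truncTotal n h : MvPolynomial σ R).toMvPowerSeries ∈
      (Ideal.span (Set.range (X : σ → MvPowerSeries σ R))) ^ n := by
    refine mem_span_X_pow_of_coeff n _ fun e he => ?_
    rw [map_sub, MvPolynomial.coeff_coe, coeff_truncTotal _ he, sub_self]
  have h2 : (Ideal.span (Set.range (X : σ → MvPowerSeries σ R))) ^ n ≤
      (maximalIdeal (MvPowerSeries σ R)) ^ n := by
    refine Ideal.pow_right_mono ?_ n
    rw [Ideal.span_le]
    rintro _ ⟨i, rfl⟩
    exact X_mem_maximalIdeal i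
  have h3 : (truncTotal n h : MvPolynomial σ R).toMvPowerSeries ∈
      (maximalIdeal (MvPowerSeries σ R)) ^ n := by
    rw [(truncTotal n h).as_sum]
    rw [← MvPolynomial.coeToMvPowerSeries.ringHom_apply, map_sum]
    refine Ideal.sum_mem _ fun e _ => ?_
    rw [MvPolynomial.coeToMvPowerSeries.ringHom_apply, MvPolynomial.coe_monomial]
    refine monomial_mem_maximalIdeal_pow e ?_
    rw [coeff_truncTotal_eq_ite]
    split_ifs
    · exact hh e
    · exact Ideal.zero_mem _
  have := Ideal.add_mem _ (h2 h1) h3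
  simpa using this

theorem mem_maximalIdeal_pow_iff (n : ℕ) (h : MvPowerSeries σ R) :
    h ∈ (maximalIdeal (MvPowerSeries σ R)) ^ n ↔
      ∀ e : σ →₀ ℕ, coeff e h ∈ (maximalIdeal R) ^ (n - e.degree) :=
  ⟨fun hh => maximalIdeal_pow_le_filt n hh, fun hh => filt_le_maximalIdeal_pow n hh⟩

/-- power series from coefficients -/
def ofCoeff {σ : Type*} {R : Type*} (c : (σ →₀ ℕ) → R) : MvPowerSeries σ R := c

omit [Finite σ] [IsLocalRing R] in
theorem coeff_ofCoeff (c : (σ →₀ ℕ) → R) (e : σ →₀ ℕ) : coeff e (ofCoeff c) = c e := rfl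

instance isPrecomplete_mvPowerSeries [IsPrecomplete (maximalIdeal R) R] :
    IsPrecomplete (maximalIdeal (MvPowerSeries σ R)) (MvPowerSeries σ R) where
  prec' f hf := by
    have hc : ∀ e : σ →₀ ℕ, ∃ c : R, ∀ n, coeff e (f (n + e.degree)) ≡ c
        [SMOD (maximalIdeal R) ^ n • (⊤ : Submodule R R)] := by
      intro e
      refine IsPrecomplete.prec' (I := maximalIdeal R) (fun n => coeff e (f (n + e.degree))) ?_
      intro m n hmn
      have := hf (show m + e.degree ≤ n + e.degree by omega)
      rw [SModEq.sub_mem] at this ⊢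
      rw [smul_eq_mul, Ideal.mul_top] at this ⊢
      rw [mem_maximalIdeal_pow_iff] at this
      have := this e
      rw [map_sub] at this
      simpa using this
    choose c hc using hc
    refine ⟨ofCoeff c, fun n => ?_⟩
    rw [SModEq.sub_mem, smul_eq_mul, Ideal.mul_top, mem_maximalIdeal_pow_iff]
    intro e
    rw [map_sub, coeff_ofCoeff]
    have h1 := hc e (n - e.degree)
    rw [SModEq.sub_mem, smul_eq_mul, Ideal.mul_top] at h1
    rcases le_or_gt e.degree n with h | h
    · rwa [Nat.sub_add_cancel h] at h1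
    · have : n - e.degree = 0 := by omega
      rw [this, pow_zero, Ideal.one_eq_top]
      trivial

instance isAdicComplete_mvPowerSeries [IsNoetherianRing R] [IsAdicComplete (maximalIdeal R) R] :
    IsAdicComplete (maximalIdeal (MvPowerSeries σ R)) (MvPowerSeries σ R) where

end

end Fermat.Agent.DefRing
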