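import Mathlib
import Fermat.Agent.DefRing.Rep

/-!
Burnside's theorem: the image of an absolutely irreducible representation spans the matrix algebra.
-/

set_option autoImplicit false
set_option linter.unusedSectionVars false
set_option linter.style.haveILetI false

open scoped TensorProduct

namespace Fermat.Agent.DefRing

open IsLocalRing Module

theorem burnside_surjective (A V k : Type*) [Field k] [IsAlgClosed k] [Ring A] [Algebra k A]
    [AddCommGroup V] [Module k V] [Module A V] [IsScalarTower k A V] [IsSimpleModule A V]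
    [FiniteDimensional k V] (f : V →ₗ[k] V) : ∃ a : A, ∀ v, f v = a • v := by
  have hbij := IsSimpleModule.algebraMap_end_bijective_of_isAlgClosed (A := A) (V := V) k
  let f' : Module.End (Module.End A V) V :=
    { toFun := f
      map_add' := f.map_add
      map_smul' := by
        intro d v
        obtain ⟨c, rfl⟩ := hbij.2 d
        have h1 : ∀ w : V, (algebraMap k (Module.End A V) c) • w = c • w := fun w => rfl
        rw [RingHom.id_apply, h1, h1, map_smul] }
  obtain ⟨s, hs⟩ := Module.Finite.fg_top (R := k) (M := V)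
  obtain ⟨a, ha⟩ := jacobson_density f' s
  refine ⟨a, fun v => ?_⟩
  have hv : v ∈ Submodule.span k (s : Set V) := by rw [hs]; trivial
  refine Submodule.span_induction (p := fun v _ => f v = a • v) ?_ ?_ ?_ ?_ hv
  · intro x hx
    exact ha x hx
  · rw [map_zero, smul_zero]
  · intro x y _ _ hx hy
    rw [map_add, hx, hy, smul_add]
  · intro c x _ hx
    rw [map_smul, hx, smul_comm]

theorem span_range_eq_top_of_isIrreducible {k : Type} [Field k] [IsAlgClosed k]
    (ρ : ResidualGaloisRep k) (hirr : ρ.IsIrreducible) (f : ρ.V →ₗ[k] ρ.V) :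
    f ∈ Submodule.span k (Set.range ρ.ρ) := by
  let ρ' : Representation k Γ ρ.V := ρ.ρ
  haveI : Nontrivial ρ.V := Module.nontrivial_of_finrank_pos (R := k) (by rw [ρ.finrank_eq]; norm_num)
  haveI : Nontrivial ρ'.asModule := (inferInstance : Nontrivial ρ.V)
  haveI : IsSimpleModule (MonoidAlgebra k Γ) ρ'.asModule := by
    rw [isSimpleModule_iff]
    haveI : Nontrivial (Submodule (MonoidAlgebra k Γ) ρ'.asModule) :=
      Submodule.nontrivial_iff (MonoidAlgebra k Γ) |>.mpr inferInstance
    refine ⟨fun W => ?_⟩
    let W' : Submodule k ρ.V :=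
      { carrier := {x | ρ'.asModuleEquiv.symm x ∈ W}
        add_mem' := fun {a b} ha hb => by
          show ρ'.asModuleEquiv.symm (a + b) ∈ W
          rw [map_add]; exact W.add_mem ha hb
        zero_mem' := by
          show ρ'.asModuleEquiv.symm 0 ∈ W
          rw [map_zero]; exact W.zero_mem
        smul_mem' := fun c x hx => by
          show ρ'.asModuleEquiv.symm (c • x) ∈ W
          rw [Representation.asModuleEquiv_symm_map_smul]
          exact W.smul_mem _ hx }
    have hmem : ∀ x, x ∈ W' ↔ ρ'.asModuleEquiv.symm x ∈ W := fun x => Iff.rfl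
    have h1 := hirr W' (by
      intro σ x hx
      rw [hmem] at hx ⊢
      have := Representation.asModuleEquiv_symm_map_rho ρ' σ x
      rw [show ρ.ρ σ x = ρ' σ x from rfl, this]
      exact W.smul_mem _ hx)
    rcases h1 with h1 | h1
    · left
      rw [Submodule.eq_bot_iff]
      intro x hx
      have h2 : ρ'.asModuleEquiv x ∈ W' := by
        rw [hmem, LinearEquiv.symm_apply_apply]; exact hx
      rw [h1, Submodule.mem_bot] at h2
      exact (LinearEquiv.map_eq_zero_iff _).mp h2
    · right
      rw [Submodule.eq_top_iff']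
      intro x
      have h2 : ρ'.asModuleEquiv x ∈ W' := by rw [h1]; trivial
      rw [hmem, LinearEquiv.symm_apply_apply] at h2
      exact h2
  haveI : FiniteDimensional k ρ'.asModule := (inferInstance : FiniteDimensional k ρ.V)
  let f' : ρ'.asModule →ₗ[k] ρ'.asModule := f
  obtain ⟨a, ha⟩ := burnside_surjective (MonoidAlgebra k Γ) ρ'.asModule k f'
  have h2 : f = ρ'.asAlgebraHom a := by
    ext v
    have h3 := ha (ρ'.asModuleEquiv.symm v)
    have h4 := congrArg ρ'.asModuleEquiv h3
    rw [Representation.asModuleEquiv_map_smul, LinearEquiv.apply_symm_apply] at h4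
    exact h4
  rw [h2]
  have h5 : ∀ a : MonoidAlgebra k Γ, ρ'.asAlgebraHom a ∈ Submodule.span k (Set.range ρ.ρ) := by
    intro a
    induction a using MonoidAlgebra.induction_linear with
    | zero => rw [map_zero]; exact Submodule.zero_mem _
    | add a b ha hb =>
      rw [map_add]
      exact Submodule.add_mem _ ha hb
    | single g c =>
      rw [Representation.asAlgebraHom_single]
      exact Submodule.smul_mem _ _ (Submodule.subset_span ⟨g, rfl⟩)
  exact h5 a

/-- The matrices of an absolutely irreducible residual representation satisfy no linear relation. -/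
theorem eq_zero_of_forall_sum_eq_zero {k : Type} [Field k] (ρ : ResidualGaloisRep k)
    (habs : ρ.IsAbsolutelyIrreducible) {r : Γ → Matrix (Fin 2) (Fin 2) k} (h : RealizesRes ρ r)
    (a : Matrix (Fin 2) (Fin 2) k) (ha : ∀ σ, ∑ i, ∑ j, a i j * r σ i j = 0) : a = 0 := by
  set K := AlgebraicClosure k
  obtain ⟨b, hb⟩ := h.baseChange K
  have h1 := span_range_eq_top_of_isIrreducible (ρ.baseChange K) habs
  have h2 : ∀ f : (ρ.baseChange K).V →ₗ[K] (ρ.baseChange K).V,
      ∑ i, ∑ j, algebraMap k K (a i j) * LinearMap.toMatrix b b f i j = 0 := by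
    intro f
    refine Submodule.span_induction (p := fun f _ =>
      ∑ i, ∑ j, algebraMap k K (a i j) * LinearMap.toMatrix b b f i j = 0) ?_ ?_ ?_ ?_ (h1 f)
    · rintro _ ⟨σ, rfl⟩
      rw [hb]
      have := congrArg (algebraMap k K) (ha σ)
      rw [map_zero, map_sum] at this
      rw [← this]
      refine Finset.sum_congr rfl fun i _ => ?_
      rw [map_sum]
      refine Finset.sum_congr rfl fun j _ => ?_
      rw [map_mul]
      rfl
    · simp
    · intro x y _ _ hx hy
      simp only [map_add, Matrix.add_apply, mul_add, Finset.sum_add_distrib]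
      rw [hx, hy, add_zero]
    · intro c x _ hx
      simp only [map_smul, Matrix.smul_apply, smul_eq_mul]
      have h3 : ∀ i j, algebraMap k K (a i j) * (c * LinearMap.toMatrix b b x i j) =
          c * (algebraMap k K (a i j) * LinearMap.toMatrix b b x i j) := fun i j => by ring
      simp only [h3, ← Finset.mul_sum]
      rw [hx, mul_zero]
  ext i j
  have h4 := h2 (Matrix.toLin b b (Matrix.single i j 1))
  rw [LinearMap.toMatrix_toLin] at h4
  rw [Finset.sum_eq_single i, Finset.sum_eq_single j] at h4
  · rw [Matrix.single_apply_same, mul_one] at h4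
    rw [Matrix.zero_apply]
    exact (map_eq_zero _).mp h4
  · intro j' _ hj'
    rw [Matrix.single_apply_of_col_ne _ _ (Ne.symm hj'), mul_zero]
  · simp
  · intro i' _ hi'
    refine Finset.sum_eq_zero fun j' _ => ?_
    rw [Matrix.single_apply_of_row_ne (Ne.symm hi'), mul_zero]
  · simp

theorem span_range_matrix_eq_top {k : Type} [Field k] (ρ : ResidualGaloisRep k)
    (habs : ρ.IsAbsolutelyIrreducible) {r : Γ → Matrix (Fin 2) (Fin 2) k} (h : RealizesRes ρ r) :
    Submodule.span k (Set.range r) = ⊤ := by
  by_contra hne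
  obtain ⟨f, hf0, hf⟩ := Submodule.exists_le_ker_of_lt_top _ (lt_top_iff_ne_top.mpr hne)
  apply hf0
  have h1 := eq_zero_of_forall_sum_eq_zero ρ habs h
    (fun i j => f (Matrix.single i j 1)) (by
      intro σ
      have h2 : f (r σ) = 0 := hf (Submodule.subset_span ⟨σ, rfl⟩)
      rw [Matrix.matrix_eq_sum_single (r σ), map_sum] at h2
      rw [← h2]
      refine Finset.sum_congr rfl fun i _ => ?_
      rw [map_sum]
      refine Finset.sum_congr rfl fun j _ => ?_
      have h3 : Matrix.single i j (r σ i j) = (r σ i j) • Matrix.single i j (1 : k) := by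
        rw [Matrix.smul_single, smul_eq_mul, mul_one]
      rw [h3, map_smul, smul_eq_mul, mul_comm])
  ext M
  rw [Matrix.matrix_eq_sum_single M, map_sum, LinearMap.zero_apply]
  refine Finset.sum_eq_zero fun i _ => ?_
  rw [map_sum]
  refine Finset.sum_eq_zero fun j _ => ?_
  have h3 : Matrix.single i j (M i j) = (M i j) • Matrix.single i j (1 : k) := by
    rw [Matrix.smul_single, smul_eq_mul, mul_one]
  rw [h3, map_smul]
  have h4 : f (Matrix.single i j 1) = 0 := congrFun (congrFun h1 i) j
  rw [h4, smul_zero]

/-- every matrix is a linear combination of the matrices of `ρ` -/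
theorem exists_finsupp_sum_eq {k : Type} [Field k] (ρ : ResidualGaloisRep k)
    (habs : ρ.IsAbsolutelyIrreducible) {r : Γ → Matrix (Fin 2) (Fin 2) k} (h : RealizesRes ρ r)
    (M : Matrix (Fin 2) (Fin 2) k) :
    ∃ (s : Finset Γ) (c : Γ → k), ∑ σ ∈ s, c σ • r σ = M := by
  have h1 : M ∈ Submodule.span k (Set.range r) := by
    rw [span_range_matrix_eq_top ρ habs h]; trivial
  rw [Finsupp.mem_span_range_iff_exists_finsupp] at h1
  obtain ⟨c, hc⟩ := h1
  exact ⟨c.support, c, hc⟩

end Fermat.Agent.DefRing
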