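import Mathlib
import Fermat.Agent.DefRing.Burnside

/-!
Rigid normal form of lifts of an absolutely irreducible two-dimensional representation.
-/

set_option autoImplicit false
set_option linter.unusedSectionVars false
set_option linter.style.haveILetI false

open scoped TensorProduct

namespace Fermat.Agent.DefRing

open IsLocalRing Module

/-- Data fixing the normal form. -/
structure Frame (𝒪 : Type) [CommRing 𝒪] [IsLocalRing 𝒪]
    (ρbar : ResidualGaloisRep (ResidueField 𝒪)) where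
  /-- lift of the matrices of `ρbar` -/
  rt : Γ → Matrix (Fin 2) (Fin 2) 𝒪
  real : RealizesRes ρbar (fun σ => (rt σ).map (residue 𝒪))
  s1 : Finset Γ
  c1 : Γ → 𝒪
  s2 : Finset Γ
  c2 : Γ → 𝒪
  h1 : ∑ σ ∈ s1, residue 𝒪 (c1 σ) • (rt σ).map (residue 𝒪) = !![1, 0; 0, 0]
  h2 : ∑ σ ∈ s2, residue 𝒪 (c2 σ) • (rt σ).map (residue 𝒪) = !![0, 1; 0, 0]

theorem exists_frame (𝒪 : Type) [CommRing 𝒪] [IsLocalRing 𝒪]
    (ρbar : ResidualGaloisRep (ResidueField 𝒪)) (habs : ρbar.IsAbsolutelyIrreducible) :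
    Nonempty (Frame 𝒪 ρbar) := by
  obtain ⟨rb, hrb⟩ := exists_realizesRes ρbar
  let f : ResidueField 𝒪 → 𝒪 := Function.surjInv residue_surjective
  have hf : ∀ x, residue 𝒪 (f x) = x := Function.surjInv_eq residue_surjective
  have hrt : (fun σ => ((rb σ).map f).map (residue 𝒪)) = rb := by
    funext σ
    ext i j
    exact hf _
  obtain ⟨s1, c1, h1⟩ := exists_finsupp_sum_eq ρbar habs hrb !![1, 0; 0, 0]
  obtain ⟨s2, c2, h2⟩ := exists_finsupp_sum_eq ρbar habs hrb !![0, 1; 0, 0]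
  refine ⟨{ rt := fun σ => (rb σ).map f, real := by rw [hrt]; exact hrb, s1 := s1,
            c1 := fun σ => f (c1 σ), s2 := s2, c2 := fun σ => f (c2 σ), h1 := ?_, h2 := ?_ }⟩
  · rw [← h1]
    refine Finset.sum_congr rfl fun σ _ => ?_
    rw [hf]
    congr 1
    exact congrFun hrt σ
  · rw [← h2]
    refine Finset.sum_congr rfl fun σ _ => ?_
    rw [hf]
    congr 1
    exact congrFun hrt σ

section Lin

variable {𝒪 : Type} [CommRing 𝒪]

/-- linear combination of matrices -/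
def lin {A : Type} [CommRing A] [Algebra 𝒪 A] (s : Finset Γ) (c : Γ → 𝒪)
    (r : Γ → Matrix (Fin 2) (Fin 2) A) : Matrix (Fin 2) (Fin 2) A :=
  ∑ σ ∈ s, algebraMap 𝒪 A (c σ) • r σ

theorem lin_apply {A : Type} [CommRing A] [Algebra 𝒪 A] (s : Finset Γ) (c : Γ → 𝒪)
    (r : Γ → Matrix (Fin 2) (Fin 2) A) (i j : Fin 2) :
    lin s c r i j = ∑ σ ∈ s, algebraMap 𝒪 A (c σ) * r σ i j := by
  rw [lin, Matrix.sum_apply]
  rfl

theorem lin_map {A B : Type} [CommRing A] [Algebra 𝒪 A] [CommRing B] [Algebra 𝒪 B]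
    (φ : A →ₐ[𝒪] B) (s : Finset Γ) (c : Γ → 𝒪) (r : Γ → Matrix (Fin 2) (Fin 2) A) (i j : Fin 2) :
    lin s c (fun σ => (r σ).map φ) i j = φ (lin s c r i j) := by
  rw [lin_apply, lin_apply, map_sum]
  refine Finset.sum_congr rfl fun σ _ => ?_
  rw [map_mul, AlgHom.commutes]
  rfl

theorem mul_lin {A : Type} [CommRing A] [Algebra 𝒪 A] (s : Finset Γ) (c : Γ → 𝒪)
    {r r' : Γ → Matrix (Fin 2) (Fin 2) A} {P : Matrix (Fin 2) (Fin 2) A}
    (h : ∀ σ, P * r' σ = r σ * P) : P * lin s c r' = lin s c r * P := by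
  rw [lin, lin, Finset.mul_sum, Finset.sum_mul]
  refine Finset.sum_congr rfl fun σ _ => ?_
  rw [Matrix.mul_smul, Matrix.smul_mul, h]

end Lin

section

variable {𝒪 : Type} [CommRing 𝒪] [IsLocalRing 𝒪]
  {ρbar : ResidualGaloisRep (ResidueField 𝒪)} (F : Frame 𝒪 ρbar)

/-- the residual matrices are the given ones -/
def ResOK {A : Type} [CommRing A] [IsLocalRing A] [Algebra 𝒪 A]
    (r : Γ → Matrix (Fin 2) (Fin 2) A) : Prop :=
  ∀ σ i j, r σ i j - algebraMap 𝒪 A (F.rt σ i j) ∈ maximalIdeal A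

/-- the matrices are in normal form -/
structure WellPlaced {A : Type} [CommRing A] [Algebra 𝒪 A]
    (r : Γ → Matrix (Fin 2) (Fin 2) A) : Prop where
  w1 : lin F.s1 F.c1 r 0 1 = 0
  w2 : lin F.s1 F.c1 r 1 0 = 0
  w3 : lin F.s2 F.c2 r 0 1 = 1

variable {A : Type} [CommRing A] [IsLocalRing A] [Algebra 𝒪 A]

theorem residue_lin [IsLocalHom (algebraMap 𝒪 A)] {r : Γ → Matrix (Fin 2) (Fin 2) A}
    (hr : ResOK F r) (s : Finset Γ) (c : Γ → 𝒪) (M : Matrix (Fin 2) (Fin 2) 𝒪)
    (h : ∑ σ ∈ s, residue 𝒪 (c σ) • (F.rt σ).map (residue 𝒪) = M.map (residue 𝒪)) (i j : Fin 2) :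
    lin s c r i j - algebraMap 𝒪 A (M i j) ∈ maximalIdeal A := by
  have h1 : ∑ σ ∈ s, c σ * F.rt σ i j - M i j ∈ maximalIdeal 𝒪 := by
    rw [← residue_eq_zero_iff, map_sub, map_sum, sub_eq_zero]
    have h2 := congrFun (congrFun h i) j
    rw [Matrix.sum_apply] at h2
    rw [Matrix.map_apply] at h2
    rw [← h2]
    refine Finset.sum_congr rfl fun σ _ => ?_
    rw [map_mul]
    rfl
  have h3 : algebraMap 𝒪 A (∑ σ ∈ s, c σ * F.rt σ i j - M i j) ∈ maximalIdeal A := by
    have := map_nonunit (algebraMap 𝒪 A) _ h1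
    exact this
  have h4 : lin s c r i j - algebraMap 𝒪 A (∑ σ ∈ s, c σ * F.rt σ i j) ∈ maximalIdeal A := by
    rw [lin_apply, map_sum, ← Finset.sum_sub_distrib]
    refine Ideal.sum_mem _ fun σ _ => ?_
    rw [map_mul, ← mul_sub]
    exact Ideal.mul_mem_left _ _ (hr σ i j)
  have h5 := Ideal.add_mem _ h4 h3
  rw [map_sub] at h5
  simpa using h5

theorem ResOK.lin1 [IsLocalHom (algebraMap 𝒪 A)] {r : Γ → Matrix (Fin 2) (Fin 2) A}
    (hr : ResOK F r) :
    lin F.s1 F.c1 r 0 0 - 1 ∈ maximalIdeal A ∧ lin F.s1 F.c1 r 0 1 ∈ maximalIdeal A ∧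
    lin F.s1 F.c1 r 1 0 ∈ maximalIdeal A ∧ lin F.s1 F.c1 r 1 1 ∈ maximalIdeal A := by
  have h := residue_lin F hr F.s1 F.c1 !![1, 0; 0, 0] (by
    rw [F.h1]; ext i j; fin_cases i <;> fin_cases j <;> simp)
  refine ⟨?_, ?_, ?_, ?_⟩
  · simpa using h 0 0
  · simpa using h 0 1
  · simpa using h 1 0
  · simpa using h 1 1

theorem ResOK.lin2 [IsLocalHom (algebraMap 𝒪 A)] {r : Γ → Matrix (Fin 2) (Fin 2) A}
    (hr : ResOK F r) : lin F.s2 F.c2 r 0 1 - 1 ∈ maximalIdeal A := by
  have h := residue_lin F hr F.s2 F.c2 !![0, 1; 0, 0] (by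
    rw [F.h2]; ext i j; fin_cases i <;> fin_cases j <;> simp)
  simpa using h 0 1

theorem isUnit_of_sub_one_mem {a : A} (h : a - 1 ∈ maximalIdeal A) : IsUnit a := by
  by_contra h1
  have h2 : a ∈ maximalIdeal A := h1
  have h3 := Ideal.sub_mem _ h2 h
  rw [sub_sub_cancel] at h3
  exact (Ideal.ne_top_iff_one _).mp (maximalIdeal.isMaximal A).ne_top h3

/-- conjugation by a matrix congruent to `1` -/
theorem exists_conj_step {ρ : GaloisRepAdic A} {r : Γ → Matrix (Fin 2) (Fin 2) A}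
    (h : Realizes ρ r) (hr : ResOK F r) (P : Matrix (Fin 2) (Fin 2) A)
    (h00 : P 0 0 - 1 ∈ maximalIdeal A) (h01 : P 0 1 ∈ maximalIdeal A)
    (h10 : P 1 0 ∈ maximalIdeal A) (h11 : P 1 1 - 1 ∈ maximalIdeal A) :
    IsUnit P.det ∧ ∃ r', Realizes ρ r' ∧ ResOK F r' ∧ ∀ σ, P * r' σ = r σ * P := by
  have hdet : IsUnit P.det := by
    apply isUnit_of_sub_one_mem
    rw [Matrix.det_fin_two]
    have : P 0 0 * P 1 1 - P 0 1 * P 1 0 - 1 =
        (P 0 0 - 1) * P 1 1 + (P 1 1 - 1) - P 0 1 * P 1 0 := by ring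
    rw [this]
    exact Ideal.sub_mem _ (Ideal.add_mem _ (Ideal.mul_mem_right _ _ h00) h11)
      (Ideal.mul_mem_right _ _ h01)
  refine ⟨hdet, _, h.conj P hdet, ?_, fun σ => ?_⟩
  · have hPres : P.map (residue A) = 1 := by
      ext i j
      fin_cases i <;> fin_cases j
      · have := (residue_eq_zero_iff _).mpr h00
        rw [map_sub, map_one, sub_eq_zero] at this
        simpa using this
      · have := (residue_eq_zero_iff _).mpr h01
        simpa using this
      · have := (residue_eq_zero_iff _).mpr h10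
        simpa using this
      · have := (residue_eq_zero_iff _).mpr h11
        rw [map_sub, map_one, sub_eq_zero] at this
        simpa using this
    intro σ i j
    have h3 : P * (P⁻¹ * r σ * P) = r σ * P := by
      rw [Matrix.mul_assoc P⁻¹, ← Matrix.mul_assoc, Matrix.mul_nonsing_inv _ hdet, Matrix.one_mul]
    have h4 : (P⁻¹ * r σ * P).map (residue A) = (r σ).map (residue A) := by
      have := congrArg (fun M => M.map (residue A)) h3
      simp only [Matrix.map_mul, hPres, Matrix.one_mul, Matrix.mul_one] at this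
      have h7 : (P⁻¹ * r σ * P).map (residue A) =
          P⁻¹.map (residue A) * (r σ).map (residue A) := by
        rw [Matrix.map_mul, hPres, Matrix.mul_one, Matrix.map_mul]
      rw [h7]
      exact this
    have h5 := congrFun (congrFun h4 i) j
    rw [Matrix.map_apply, Matrix.map_apply] at h5
    have h6 : (P⁻¹ * r σ * P) i j - r σ i j ∈ maximalIdeal A := by
      rw [← residue_eq_zero_iff, map_sub, h5, sub_self]
    have := Ideal.add_mem _ h6 (hr σ i j)
    simpa using this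
  · rw [Matrix.mul_assoc P⁻¹, ← Matrix.mul_assoc, Matrix.mul_nonsing_inv _ hdet, Matrix.one_mul]

theorem exists_wellPlaced_aux [IsLocalHom (algebraMap 𝒪 A)] [IsAdicComplete (maximalIdeal A) A]
    {ρ : GaloisRepAdic A} {r : Γ → Matrix (Fin 2) (Fin 2) A}
    (h : Realizes ρ r) (hr : ResOK F r) :
    ∃ r', Realizes ρ r' ∧ ResOK F r' ∧ WellPlaced F r' := by
  obtain ⟨hu00, hu01, hu10, hu11⟩ := hr.lin1 F
  set u := lin F.s1 F.c1 r with hu
  -- eigenvalues
  obtain ⟨lam, hlam, hlam1⟩ : ∃ lam : A, lam * lam - (u 0 0 + u 1 1) * lam +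
      (u 0 0 * u 1 1 - u 0 1 * u 1 0) = 0 ∧ lam - 1 ∈ maximalIdeal A := by
    let f : Polynomial A := Polynomial.X ^ 2 - Polynomial.C (u 0 0 + u 1 1) * Polynomial.X +
      Polynomial.C (u 0 0 * u 1 1 - u 0 1 * u 1 0)
    have hf : f.Monic := by
      have : f = Polynomial.X ^ 2 + (- Polynomial.C (u 0 0 + u 1 1) * Polynomial.X +
        Polynomial.C (u 0 0 * u 1 1 - u 0 1 * u 1 0)) := by simp only [f]; ring
      rw [this]
      refine Polynomial.monic_X_pow_add ?_
      rw [← Polynomial.C_neg]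
      exact Polynomial.degree_linear_le.trans_lt (by norm_num)
    obtain ⟨a, ha, ha1⟩ := HenselianRing.is_henselian (I := maximalIdeal A) f hf 1 (by
      simp only [f, Polynomial.eval_add, Polynomial.eval_sub, Polynomial.eval_mul,
        Polynomial.eval_pow, Polynomial.eval_X, Polynomial.eval_C]
      have : (1 : A) ^ 2 - (u 0 0 + u 1 1) * 1 + (u 0 0 * u 1 1 - u 0 1 * u 1 0) =
        (u 0 0 - 1) * (u 1 1 - 1) - u 0 1 * u 1 0 := by ring
      rw [this]
      exact Ideal.sub_mem _ (Ideal.mul_mem_right _ _ hu00) (Ideal.mul_mem_right _ _ hu01)) (by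
      refine IsUnit.map _ (isUnit_of_sub_one_mem ?_)
      simp only [f, Polynomial.derivative_add, Polynomial.derivative_sub,
        Polynomial.derivative_C, Polynomial.derivative_mul, Polynomial.derivative_X,
        Polynomial.derivative_X_pow]
      simp only [Polynomial.eval_add, Polynomial.eval_sub, Polynomial.eval_mul,
        Polynomial.eval_pow, Polynomial.eval_X, Polynomial.eval_C, Polynomial.eval_zero,
        Polynomial.eval_one]
      have : (((2 : ℕ) : A) * 1 ^ (2 - 1) - (0 * 1 + (u 0 0 + u 1 1) * 1) + 0 - 1) =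
        -((u 0 0 - 1) + u 1 1) := by push_cast; ring
      rw [this]
      exact neg_mem (Ideal.add_mem _ hu00 hu11))
    refine ⟨a, ?_, ha1⟩
    have := ha
    rw [Polynomial.IsRoot.def] at this
    simp only [f, Polynomial.eval_add, Polynomial.eval_sub, Polynomial.eval_mul,
        Polynomial.eval_pow, Polynomial.eval_X, Polynomial.eval_C] at this
    rw [← this]; ring
  -- diagonalise
  set mu := u 0 0 + u 1 1 - lam with hmu
  have hmum : mu ∈ maximalIdeal A := by
    have : mu = (u 0 0 - 1) + u 1 1 - (lam - 1) := by rw [hmu]; ring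
    rw [this]
    exact Ideal.sub_mem _ (Ideal.add_mem _ hu00 hu11) hlam1
  obtain ⟨hPdet, r1, hr1, hr1res, hr1P⟩ := exists_conj_step F h hr
    !![u 0 0 - mu, - u 0 1; u 1 0, lam - u 1 1]
    (by
      show u 0 0 - mu - 1 ∈ _
      have : u 0 0 - mu - 1 = (u 0 0 - 1) - mu := by ring
      rw [this]; exact Ideal.sub_mem _ hu00 hmum)
    (by show - u 0 1 ∈ _; exact neg_mem hu01)
    (by show u 1 0 ∈ _; exact hu10)
    (by
      show lam - u 1 1 - 1 ∈ _
      have : lam - u 1 1 - 1 = (lam - 1) - u 1 1 := by ring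
      rw [this]; exact Ideal.sub_mem _ hlam1 hu11)
  set P : Matrix (Fin 2) (Fin 2) A := !![u 0 0 - mu, - u 0 1; u 1 0, lam - u 1 1] with hP
  have hlin1 : lin F.s1 F.c1 r1 = !![lam, 0; 0, mu] := by
    have h1 := mul_lin F.s1 F.c1 hr1P
    have h2 : u * P = P * !![lam, 0; 0, mu] := by
      rw [hP, Matrix.eta_fin_two u]
      ext i j
      fin_cases i <;> fin_cases j <;> simp [Matrix.mul_apply, Fin.sum_univ_two, hmu] <;>
        first
        | linear_combination hlam
        | linear_combination -hlam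
        | ring
    rw [← hu, h2] at h1
    have h3 := congrArg (fun M => P⁻¹ * M) h1
    simpa only [← Matrix.mul_assoc, Matrix.nonsing_inv_mul _ hPdet, Matrix.one_mul] using h3
  -- scale
  have hw := hr1res.lin2 F
  set w := lin F.s2 F.c2 r1 0 1 with hw'
  have hwu : IsUnit w := isUnit_of_sub_one_mem hw
  obtain ⟨wi, hwi⟩ := hwu.exists_right_inv
  have hwi1 : wi - 1 ∈ maximalIdeal A := by
    have : wi - 1 = -(wi * (w - 1)) := by linear_combination hwi
    rw [this]; exact neg_mem (Ideal.mul_mem_left _ _ hw)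
  obtain ⟨hQdet, r2, hr2, hr2res, hr2Q⟩ := exists_conj_step F hr1 hr1res
    !![1, 0; 0, wi]
    (by show (1 : A) - 1 ∈ _; rw [sub_self]; exact Ideal.zero_mem _)
    (by show (0 : A) ∈ _; exact Ideal.zero_mem _)
    (by show (0 : A) ∈ _; exact Ideal.zero_mem _)
    (by show wi - 1 ∈ _; exact hwi1)
  have hwiu : IsUnit wi := isUnit_of_sub_one_mem hwi1
  refine ⟨r2, hr2, hr2res, ?_, ?_, ?_⟩
  · have h1 := mul_lin F.s1 F.c1 hr2Q
    rw [hlin1] at h1
    have h2 := congrFun (congrFun h1 0) 1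
    simpa [Matrix.mul_apply, Fin.sum_univ_two] using h2
  · have h1 := mul_lin F.s1 F.c1 hr2Q
    rw [hlin1] at h1
    have h2 := congrFun (congrFun h1 1) 0
    simp [Matrix.mul_apply, Fin.sum_univ_two] at h2
    exact (hwiu.mul_right_eq_zero).mp h2
  · have h1 := mul_lin F.s2 F.c2 hr2Q
    have h2 := congrFun (congrFun h1 0) 1
    simp [Matrix.mul_apply, Fin.sum_univ_two] at h2
    rw [h2, ← hw', hwi]

theorem exists_wellPlaced [IsLocalHom (algebraMap 𝒪 A)] [IsAdicComplete (maximalIdeal A) A]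
    (ρ : GaloisRepAdic A)
    (e : ρ.residual.IsEquiv (ρbar.baseChangeAlong (ResidueField.map (algebraMap 𝒪 A)))) :
    ∃ r, Realizes ρ r ∧ ResOK F r ∧ WellPlaced F r := by
  obtain ⟨r, hr, hrr⟩ := exists_realizes_of_residual_isEquiv ρ
    (F.real.baseChangeAlong (ResidueField.map (algebraMap 𝒪 A))) e
  refine exists_wellPlaced_aux F hr fun σ i j => ?_
  rw [← residue_eq_zero_iff, map_sub, sub_eq_zero]
  have h1 := congrFun (congrFun (hrr σ) i) j
  simp only [Matrix.map_apply] at h1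
  rw [h1, ResidueField.map_residue]

theorem residual_isEquiv_of_resOK [IsLocalHom (algebraMap 𝒪 A)] {ρ : GaloisRepAdic A}
    {r : Γ → Matrix (Fin 2) (Fin 2) A} (h : Realizes ρ r) (hr : ResOK F r) :
    ρ.residual.IsEquiv (ρbar.baseChangeAlong (ResidueField.map (algebraMap 𝒪 A))) := by
  have h1 := h.residual
  have h2 := F.real.baseChangeAlong (ResidueField.map (algebraMap 𝒪 A))
  have h3 : (fun σ => (r σ).map (residue A)) =
      (fun σ => ((F.rt σ).map (residue 𝒪)).map (ResidueField.map (algebraMap 𝒪 A))) := by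
    funext σ
    ext i j
    have h4 := hr σ i j
    rw [← residue_eq_zero_iff, map_sub, sub_eq_zero] at h4
    simp only [Matrix.map_apply]
    rw [h4, ResidueField.map_residue]
  rw [h3] at h1
  exact h1.isEquiv h2

theorem wellPlaced_unique [IsLocalHom (algebraMap 𝒪 A)] {ρ : GaloisRepAdic A}
    {r r' : Γ → Matrix (Fin 2) (Fin 2) A} (h : Realizes ρ r) (hr : ResOK F r)
    (hw : WellPlaced F r) (h' : Realizes ρ r') (hr' : ResOK F r') (hw' : WellPlaced F r') :
    r = r' := by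
  obtain ⟨P, hP, hPr⟩ := h.exists_conj h'
  obtain ⟨hu00, hu01, hu10, hu11⟩ := hr.lin1 F
  obtain ⟨hu00', hu01', hu10', hu11'⟩ := hr'.lin1 F
  have h1 := mul_lin F.s1 F.c1 hPr
  have h2 := mul_lin F.s2 F.c2 hPr
  have h01 : P 0 1 = 0 := by
    have h3 := congrFun (congrFun h1 0) 1
    simp only [Matrix.mul_apply, Fin.sum_univ_two, hw.w1, hw'.w1, mul_zero, zero_mul, zero_add,
      add_zero] at h3
    have h4 : IsUnit (lin F.s1 F.c1 r 0 0 - lin F.s1 F.c1 r' 1 1) := by
      apply isUnit_of_sub_one_mem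
      have : lin F.s1 F.c1 r 0 0 - lin F.s1 F.c1 r' 1 1 - 1 =
        (lin F.s1 F.c1 r 0 0 - 1) - lin F.s1 F.c1 r' 1 1 := by ring
      rw [this]; exact Ideal.sub_mem _ hu00 hu11'
    refine (h4.mul_right_eq_zero).mp ?_
    linear_combination -h3
  have h10 : P 1 0 = 0 := by
    have h3 := congrFun (congrFun h1 1) 0
    simp only [Matrix.mul_apply, Fin.sum_univ_two, hw.w2, hw'.w2, mul_zero, zero_mul, zero_add,
      add_zero] at h3
    have h4 : IsUnit (lin F.s1 F.c1 r' 0 0 - lin F.s1 F.c1 r 1 1) := by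
      apply isUnit_of_sub_one_mem
      have : lin F.s1 F.c1 r' 0 0 - lin F.s1 F.c1 r 1 1 - 1 =
        (lin F.s1 F.c1 r' 0 0 - 1) - lin F.s1 F.c1 r 1 1 := by ring
      rw [this]; exact Ideal.sub_mem _ hu00' hu11
    refine (h4.mul_right_eq_zero).mp ?_
    linear_combination h3
  have h0011 : P 0 0 = P 1 1 := by
    have h3 := congrFun (congrFun h2 0) 1
    simpa only [Matrix.mul_apply, Fin.sum_univ_two, hw.w3, hw'.w3, h01, mul_zero, zero_mul,
      zero_add, add_zero, mul_one, one_mul] using h3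
  have hPs : P = P 0 0 • (1 : Matrix (Fin 2) (Fin 2) A) := by
    ext i j
    fin_cases i <;> fin_cases j <;> simp [h01, h10, h0011]
  have hPu : IsUnit (P 0 0) := by
    rw [Matrix.det_fin_two, h01, zero_mul, sub_zero] at hP
    exact isUnit_of_mul_isUnit_left hP
  funext σ
  have h5 := hPr σ
  rw [hPs, Matrix.smul_mul, Matrix.mul_smul, Matrix.one_mul, Matrix.mul_one] at h5
  ext i j
  have h6 := congrFun (congrFun h5 i) j
  simp only [Matrix.smul_apply, smul_eq_mul] at h6
  exact (hPu.mul_left_cancel h6).symm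

end

end Fermat.Agent.DefRing
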