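import Mathlib
import Fermat.Agent.DefRing.NormalForm

/-!
The functor of well-placed deformations of type `𝒟` and its exactness properties.
-/

set_option autoImplicit false
set_option linter.unusedSectionVars false
set_option linter.style.haveILetI false

open scoped TensorProduct

namespace Fermat.Agent.DefRing

open IsLocalRing Module GaloisRep

variable {𝒪 : Type} [CommRing 𝒪] [IsLocalRing 𝒪]
  {ρbar : ResidualGaloisRep (ResidueField 𝒪)} (F : Frame 𝒪 ρbar)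
  (𝒟 : ∀ ⦃A : Type⦄ [CommRing A] [IsLocalRing A] [Algebra 𝒪 A], GaloisRepAdic A → Prop)

/-- `r` is a well placed deformation of type `𝒟` -/
structure IsDef {A : Type} [CommRing A] [IsLocalRing A] [Algebra 𝒪 A]
    (r : Γ → Matrix (Fin 2) (Fin 2) A) : Prop where
  res : ResOK F r
  wp : WellPlaced F r
  real : ∃ ρ : GaloisRepAdic A, 𝒟 ρ ∧ Realizes ρ r

variable {F 𝒟}

theorem IsDef.realizes_unique {A : Type} [CommRing A] [IsLocalRing A] [Algebra 𝒪 A]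
    [IsLocalHom (algebraMap 𝒪 A)]
    {r r' : Γ → Matrix (Fin 2) (Fin 2) A} (h : IsDef F 𝒟 r) (h' : IsDef F 𝒟 r')
    {ρ : GaloisRepAdic A} (hr : Realizes ρ r) (hr' : Realizes ρ r') : r = r' :=
  wellPlaced_unique F hr h.res h.wp hr' h'.res h'.wp

theorem ResOK.map {A B : Type} [CommRing A] [IsLocalRing A] [Algebra 𝒪 A]
    [CommRing B] [IsLocalRing B] [Algebra 𝒪 B] (φ : A →ₐ[𝒪] B) (hφ : IsLocalHom (φ : A →+* B))
    {r : Γ → Matrix (Fin 2) (Fin 2) A} (h : ResOK F r) : ResOK F (fun σ => (r σ).map φ) := by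
  intro σ i j
  have h1 := map_nonunit (φ : A →+* B) _ (h σ i j)
  rw [map_sub] at h1
  simpa using h1

theorem WellPlaced.map {A B : Type} [CommRing A] [Algebra 𝒪 A]
    [CommRing B] [Algebra 𝒪 B] (φ : A →ₐ[𝒪] B)
    {r : Γ → Matrix (Fin 2) (Fin 2) A} (h : WellPlaced F r) :
    WellPlaced F (fun σ => (r σ).map φ) := by
  refine ⟨?_, ?_, ?_⟩
  · rw [lin_map, h.w1, map_zero]
  · rw [lin_map, h.w2, map_zero]
  · rw [lin_map, h.w3, map_one]

theorem IsDef.map (h𝒟 : IsDeformationCondition 𝒪 𝒟) {A B : Type}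
    [CommRing A] [IsLocalRing A] [Algebra 𝒪 A] [CommRing B] [IsLocalRing B] [Algebra 𝒪 B]
    (hA : IsArtinianTestAlgebra 𝒪 A) (hB : IsArtinianTestAlgebra 𝒪 B)
    (φ : A →ₐ[𝒪] B) (hφ : IsLocalHom (φ : A →+* B))
    {r : Γ → Matrix (Fin 2) (Fin 2) A} (h : IsDef F 𝒟 r) :
    IsDef F 𝒟 (fun σ => (r σ).map φ) := by
  obtain ⟨ρ, hρ, hr⟩ := h.real
  exact ⟨h.res.map φ hφ, h.wp.map φ, ρ.baseChangeAlong (φ : A →+* B) hφ,
    h𝒟.baseChangeAlong hA hB φ hφ hρ, hr.baseChange (φ : A →+* B) hφ⟩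

theorem ResOK.of_map {A B : Type} [CommRing A] [IsLocalRing A] [Algebra 𝒪 A]
    [CommRing B] [IsLocalRing B] [Algebra 𝒪 B] (φ : A →ₐ[𝒪] B)
    {r : Γ → Matrix (Fin 2) (Fin 2) A} (h : ResOK F (fun σ => (r σ).map φ)) : ResOK F r := by
  intro σ i j hu
  refine h σ i j ?_
  have h2 := hu.map φ
  rw [map_sub] at h2
  simpa using h2

theorem exists_maximalIdeal_pow_eq_bot {A : Type} [CommRing A] [IsLocalRing A] [Algebra 𝒪 A]
    (hA : IsArtinianTestAlgebra 𝒪 A) : ∃ N, maximalIdeal A ^ N = ⊥ := by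
  haveI := hA.isArtinian
  obtain ⟨N, hN⟩ := (isArtinianRing_iff_isNilpotent_maximalIdeal A).mp inferInstance
  exact ⟨N, hN⟩

theorem MatCont.exists_eq_one {A : Type} [CommRing A] [IsLocalRing A] [Algebra 𝒪 A]
    (hA : IsArtinianTestAlgebra 𝒪 A) {r : Γ → Matrix (Fin 2) (Fin 2) A} (h : MatCont r) :
    ∃ L : IntermediateField ℚ (AlgebraicClosure ℚ), FiniteDimensional ℚ L ∧
    ∀ σ : Γ, (∀ x ∈ L, σ x = x) → r σ = 1 := by
  obtain ⟨N, hN⟩ := exists_maximalIdeal_pow_eq_bot hA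
  obtain ⟨L, hL, h1⟩ := h N
  refine ⟨L, hL, fun σ hσ => ?_⟩
  ext i j
  have := h1 σ hσ i j
  rw [hN, Ideal.mem_bot, Matrix.sub_apply, sub_eq_zero] at this
  exact this

theorem matCont_of_exists_eq_one {A : Type} [CommRing A] [IsLocalRing A]
    {r : Γ → Matrix (Fin 2) (Fin 2) A}
    (h : ∃ L : IntermediateField ℚ (AlgebraicClosure ℚ), FiniteDimensional ℚ L ∧
    ∀ σ : Γ, (∀ x ∈ L, σ x = x) → r σ = 1) : MatCont r := by
  obtain ⟨L, hL, h1⟩ := h
  intro n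
  refine ⟨L, hL, fun σ hσ i j => ?_⟩
  rw [h1 σ hσ, sub_self]
  exact Ideal.zero_mem _

theorem IsDef.of_injective (h𝒟 : IsDeformationCondition 𝒪 𝒟) {A B : Type}
    [CommRing A] [IsLocalRing A] [Algebra 𝒪 A] [CommRing B] [IsLocalRing B] [Algebra 𝒪 B]
    (hA : IsArtinianTestAlgebra 𝒪 A) (hB : IsArtinianTestAlgebra 𝒪 B)
    (φ : A →ₐ[𝒪] B) (hφ : IsLocalHom (φ : A →+* B)) (hinj : Function.Injective φ)
    {r : Γ → Matrix (Fin 2) (Fin 2) A} (h : IsDef F 𝒟 (fun σ => (r σ).map φ)) :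
    IsDef F 𝒟 r := by
  obtain ⟨ρ, hρ, hr⟩ := h.real
  have hinjM : ∀ M M' : Matrix (Fin 2) (Fin 2) A, M.map φ = M'.map φ → M = M' := by
    intro M M' hM
    ext i j
    exact hinj (congrFun (congrFun hM i) j)
  have h1 : r 1 = 1 := by
    apply hinjM
    rw [hr.map_one]
    simp
  have hmul : ∀ σ τ, r (σ * τ) = r σ * r τ := by
    intro σ τ
    apply hinjM
    rw [hr.map_mul]
    exact (Matrix.map_mul (f := (φ : A →+* B))).symm
  have hc : MatCont r := by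
    apply matCont_of_exists_eq_one
    obtain ⟨L, hL, h2⟩ := hr.matCont.exists_eq_one hB
    refine ⟨L, hL, fun σ hσ => ?_⟩
    apply hinjM
    rw [h2 σ hσ]
    simp
  obtain ⟨ρA, hρA⟩ := exists_of_matrices r h1 hmul hc
  refine ⟨h.res.of_map φ, ?_, ρA, ?_, hρA⟩
  · refine ⟨?_, ?_, ?_⟩
    · apply hinj
      rw [← lin_map, h.wp.w1, map_zero]
    · apply hinj
      rw [← lin_map, h.wp.w2, map_zero]
    · apply hinj
      rw [← lin_map, h.wp.w3, map_one]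
  · refine h𝒟.of_baseChangeAlong_injective hA hB φ hφ hinj ?_
    exact h𝒟.of_isEquiv hB (hr.isEquiv (hρA.baseChange (φ : A →+* B) hφ)) hρ

theorem IsDef.of_fibre (h𝒟 : IsDeformationCondition 𝒪 𝒟) {A B C Q : Type}
    [CommRing A] [IsLocalRing A] [Algebra 𝒪 A] [CommRing B] [IsLocalRing B] [Algebra 𝒪 B]
    [CommRing C] [IsLocalRing C] [Algebra 𝒪 C] [CommRing Q] [IsLocalRing Q] [Algebra 𝒪 Q]
    (hA : IsArtinianTestAlgebra 𝒪 A) (hB : IsArtinianTestAlgebra 𝒪 B)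
    (hC : IsArtinianTestAlgebra 𝒪 C) (hQ : IsArtinianTestAlgebra 𝒪 Q)
    (f : A →ₐ[𝒪] C) (g : B →ₐ[𝒪] C) (pA : Q →ₐ[𝒪] A) (pB : Q →ₐ[𝒪] B)
    (hpA : IsLocalHom (pA : Q →+* A)) (hpB : IsLocalHom (pB : Q →+* B))
    (hcomm : f.comp pA = g.comp pB)
    (hinj : Function.Injective (fun x => (pA x, pB x)))
    (hsurj : ∀ a b, f a = g b → ∃ x, pA x = a ∧ pB x = b)
    {r : Γ → Matrix (Fin 2) (Fin 2) Q} (hrA : IsDef F 𝒟 (fun σ => (r σ).map pA))
    (hrB : IsDef F 𝒟 (fun σ => (r σ).map pB)) :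
    IsDef F 𝒟 r := by
  obtain ⟨ρA, hρA, hrA'⟩ := hrA.real
  obtain ⟨ρB, hρB, hrB'⟩ := hrB.real
  have hinj' : ∀ x y, pA x = pA y → pB x = pB y → x = y := fun x y h1 h2 =>
    hinj (Prod.ext h1 h2)
  have hinjM : ∀ M M' : Matrix (Fin 2) (Fin 2) Q, M.map pA = M'.map pA → M.map pB = M'.map pB →
      M = M' := by
    intro M M' hM hM'
    ext i j
    exact hinj' _ _ (congrFun (congrFun hM i) j) (congrFun (congrFun hM' i) j)
  have h1 : r 1 = 1 := by
    apply hinjM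
    · rw [hrA'.map_one]
      simp
    · rw [hrB'.map_one]
      simp
  have hmul : ∀ σ τ, r (σ * τ) = r σ * r τ := by
    intro σ τ
    apply hinjM
    · rw [hrA'.map_mul]
      exact (Matrix.map_mul (f := (pA : Q →+* A))).symm
    · rw [hrB'.map_mul]
      exact (Matrix.map_mul (f := (pB : Q →+* B))).symm
  have hc : MatCont r := by
    apply matCont_of_exists_eq_one
    obtain ⟨L, hL, h2⟩ := hrA'.matCont.exists_eq_one hA
    obtain ⟨L', hL', h2'⟩ := hrB'.matCont.exists_eq_one hB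
    refine ⟨L ⊔ L', IntermediateField.finiteDimensional_sup L L', fun σ hσ => ?_⟩
    apply hinjM
    · rw [h2 σ (fun x hx => hσ x (le_sup_left (a := L) (b := L') hx))]
      simp
    · rw [h2' σ (fun x hx => hσ x (le_sup_right (a := L) (b := L') hx))]
      simp
  obtain ⟨ρ, hρ⟩ := exists_of_matrices r h1 hmul hc
  refine ⟨hrA.res.of_map pA, ?_, ρ, ?_, hρ⟩
  · refine ⟨?_, ?_, ?_⟩
    · apply hinj'
      · rw [← lin_map, hrA.wp.w1, map_zero]
      · rw [← lin_map, hrB.wp.w1, map_zero]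
    · apply hinj'
      · rw [← lin_map, hrA.wp.w2, map_zero]
      · rw [← lin_map, hrB.wp.w2, map_zero]
    · apply hinj'
      · rw [← lin_map, hrA.wp.w3, map_one]
      · rw [← lin_map, hrB.wp.w3, map_one]
  · refine h𝒟.of_fibreProduct hA hB hC hQ f g pA pB hpA hpB hcomm hinj hsurj ?_ ?_
    · exact h𝒟.of_isEquiv hA (hrA'.isEquiv (hρ.baseChange (pA : Q →+* A) hpA)) hρA
    · exact h𝒟.of_isEquiv hB (hrB'.isEquiv (hρ.baseChange (pB : Q →+* B) hpB)) hρB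

end Fermat.Agent.DefRing
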