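import Mathlib
import Fermat.Agent.DefRing.IsDef

/-!
Good ideals of the polynomial ring on matrix entries.
-/

set_option autoImplicit false
set_option linter.unusedSectionVars false
set_option linter.style.haveILetI false

open scoped TensorProduct

namespace Fermat.Agent.DefRing

open IsLocalRing Module GaloisRep

/-- polynomial ring on the matrix entries -/
abbrev PolyRing (𝒪 : Type) [CommRing 𝒪] : Type := MvPolynomial (Γ × Fin 2 × Fin 2) 𝒪

/-- the universal matrices -/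
noncomputable def Xm (𝒪 : Type) [CommRing 𝒪] : Γ → Matrix (Fin 2) (Fin 2) (PolyRing 𝒪) :=
  fun σ => Matrix.of fun i j => MvPolynomial.X (σ, i, j)

section

variable {𝒪 : Type} [CommRing 𝒪] [IsLocalRing 𝒪]
  {ρbar : ResidualGaloisRep (ResidueField 𝒪)} (F : Frame 𝒪 ρbar)

/-- the homomorphism attached to matrices -/
noncomputable def homOf {A : Type} [CommRing A] [Algebra 𝒪 A] (r : Γ → Matrix (Fin 2) (Fin 2) A) :
    PolyRing 𝒪 →ₐ[𝒪] A :=
  MvPolynomial.aeval (fun s => r s.1 s.2.1 s.2.2)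

theorem Xm_map_homOf {A : Type} [CommRing A] [Algebra 𝒪 A] (r : Γ → Matrix (Fin 2) (Fin 2) A) :
    (fun σ => (Xm 𝒪 σ).map (homOf r)) = r := by
  funext σ
  ext i j
  simp [Xm, homOf]

theorem hom_ext_of_Xm {A : Type} [CommRing A] [Algebra 𝒪 A] {f g : PolyRing 𝒪 →ₐ[𝒪] A}
    (h : (fun σ => (Xm 𝒪 σ).map f) = (fun σ => (Xm 𝒪 σ).map g)) : f = g := by
  apply MvPolynomial.algHom_ext
  rintro ⟨σ, i, j⟩
  have := congrFun (congrFun (congrFun h σ) i) j
  simpa [Xm] using this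

/-- residual point -/
noncomputable def resHom : PolyRing 𝒪 →ₐ[𝒪] ResidueField 𝒪 :=
  homOf (fun σ => (F.rt σ).map (residue 𝒪))

/-- the maximal ideal of the residual point -/
noncomputable def mIdeal : Ideal (PolyRing 𝒪) := RingHom.ker (resHom F)

theorem mem_mIdeal {p : PolyRing 𝒪} : p ∈ mIdeal F ↔ resHom F p = 0 := RingHom.mem_ker

theorem resHom_surjective : Function.Surjective (resHom F) := by
  intro x
  obtain ⟨a, rfl⟩ := residue_surjective x
  exact ⟨algebraMap 𝒪 _ a, (resHom F).commutes a⟩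

instance mIdeal_isMaximal : (mIdeal F).IsMaximal :=
  RingHom.ker_isMaximal_of_surjective _ (resHom_surjective F)

theorem exists_sub_mem_mIdeal (p : PolyRing 𝒪) : ∃ a : 𝒪, p - algebraMap 𝒪 _ a ∈ mIdeal F := by
  obtain ⟨a, ha⟩ := residue_surjective (resHom F p)
  refine ⟨a, ?_⟩
  rw [mem_mIdeal, map_sub, AlgHom.commutes, ← ha]
  exact sub_self _

theorem algebraMap_mem_mIdeal {a : 𝒪} : algebraMap 𝒪 (PolyRing 𝒪) a ∈ mIdeal F ↔
    a ∈ maximalIdeal 𝒪 := by
  rw [mem_mIdeal, AlgHom.commutes, ← residue_eq_zero_iff]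
  rfl

theorem map_mem_of_mem_mIdeal {A : Type} [CommRing A] [IsLocalRing A] [Algebra 𝒪 A]
    [IsLocalHom (algebraMap 𝒪 A)] (h : PolyRing 𝒪 →ₐ[𝒪] A)
    (hr : ResOK F (fun σ => (Xm 𝒪 σ).map h)) {p : PolyRing 𝒪} (hp : p ∈ mIdeal F) :
    h p ∈ maximalIdeal A := by
  have h1 : (residue A).comp (h : PolyRing 𝒪 →+* A) =
      (ResidueField.map (algebraMap 𝒪 A)).comp (resHom F : PolyRing 𝒪 →+* ResidueField 𝒪) := by
    apply MvPolynomial.ringHom_ext
    · intro a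
      have h2 : h (MvPolynomial.C a) = algebraMap 𝒪 A a := h.commutes a
      have h3 : resHom F (MvPolynomial.C a) = residue 𝒪 a := (resHom F).commutes a
      simp only [RingHom.comp_apply, RingHom.coe_coe]
      rw [h2, h3, ResidueField.map_residue]
    · rintro ⟨σ, i, j⟩
      have h4 := hr σ i j
      rw [← residue_eq_zero_iff, map_sub, sub_eq_zero] at h4
      simp only [RingHom.comp_apply, RingHom.coe_coe]
      have h5 : resHom F (MvPolynomial.X (σ, i, j)) = residue 𝒪 (F.rt σ i j) := by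
        simp [resHom, homOf]
      rw [h5, ResidueField.map_residue]
      exact h4
  have h6 := RingHom.congr_fun h1 p
  simp only [RingHom.comp_apply, RingHom.coe_coe] at h6
  rw [(mem_mIdeal F).mp hp, map_zero] at h6
  exact (residue_eq_zero_iff _).mp h6

/-- structure of the quotients -/
structure QuotOK (J : Ideal (PolyRing 𝒪)) : Prop where
  le : J ≤ mIdeal F
  pow_le : ∃ n, mIdeal F ^ n ≤ J
  fin : Finite (PolyRing 𝒪 ⧸ J)

variable {F}

namespace QuotOK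

variable {J : Ideal (PolyRing 𝒪)} (h : QuotOK F J)

include h

theorem isMaximal_map : ((mIdeal F).map (Ideal.Quotient.mk J)).IsMaximal :=
  Ideal.IsMaximal.map_of_surjective_of_ker_le Ideal.Quotient.mk_surjective (by simpa using h.le)

theorem isLocalRing : IsLocalRing (PolyRing 𝒪 ⧸ J) := by
  refine IsLocalRing.of_unique_max_ideal ⟨(mIdeal F).map (Ideal.Quotient.mk J), h.isMaximal_map,
    fun I hI => ?_⟩
  obtain ⟨n, hn⟩ := h.pow_le
  have h1 : (mIdeal F).map (Ideal.Quotient.mk J) ≤ I := by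
    refine hI.isPrime.le_of_pow_le (n := n) ?_
    rw [← Ideal.map_pow]
    have : (mIdeal F ^ n).map (Ideal.Quotient.mk J) = ⊥ := by
      rw [Ideal.map_eq_bot_iff_le_ker, Ideal.mk_ker]; exact hn
    rw [this]; exact bot_le
  exact (h.isMaximal_map.eq_of_le hI.ne_top h1).symm

theorem maximalIdeal_eq [IsLocalRing (PolyRing 𝒪 ⧸ J)] :
    maximalIdeal (PolyRing 𝒪 ⧸ J) = (mIdeal F).map (Ideal.Quotient.mk J) :=
  (IsLocalRing.eq_maximalIdeal h.isMaximal_map).symm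

theorem mk_mem_iff [IsLocalRing (PolyRing 𝒪 ⧸ J)] {p : PolyRing 𝒪} :
    Ideal.Quotient.mk J p ∈ maximalIdeal (PolyRing 𝒪 ⧸ J) ↔ p ∈ mIdeal F := by
  rw [h.maximalIdeal_eq, ← Ideal.mem_comap,
    Ideal.comap_map_of_surjective' _ Ideal.Quotient.mk_surjective, Ideal.mk_ker,
    sup_eq_left.mpr h.le]

theorem isTest [IsLocalRing (PolyRing 𝒪 ⧸ J)] : IsArtinianTestAlgebra 𝒪 (PolyRing 𝒪 ⧸ J) where
  isLocalHom := by
    constructor
    intro a ha
    by_contra h1
    have h2 : algebraMap 𝒪 (PolyRing 𝒪) a ∈ mIdeal F := (algebraMap_mem_mIdeal F).mpr h1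
    have h3 := h.mk_mem_iff.mpr h2
    exact h3 ha
  residue_surjective := by
    intro x
    obtain ⟨y, rfl⟩ := residue_surjective x
    obtain ⟨p, rfl⟩ := Ideal.Quotient.mk_surjective y
    obtain ⟨a, ha⟩ := exists_sub_mem_mIdeal F p
    refine ⟨a, ?_⟩
    have h1 := h.mk_mem_iff.mpr ha
    rw [← residue_eq_zero_iff, map_sub, map_sub, sub_eq_zero] at h1
    exact h1.symm
  isArtinian := by
    haveI := h.fin
    infer_instance

theorem resOK [IsLocalRing (PolyRing 𝒪 ⧸ J)] :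
    ResOK F (fun σ => (Xm 𝒪 σ).map (Ideal.Quotient.mkₐ 𝒪 J)) := by
  intro σ i j
  have h1 : (MvPolynomial.X (σ, i, j) : PolyRing 𝒪) - algebraMap 𝒪 _ (F.rt σ i j) ∈ mIdeal F := by
    rw [mem_mIdeal, map_sub, AlgHom.commutes]
    simp [resHom, homOf]
  have h2 := h.mk_mem_iff.mpr h1
  rw [map_sub] at h2
  exact h2

theorem mono {J' : Ideal (PolyRing 𝒪)} (hJ : J ≤ J') (hJ' : J' ≤ mIdeal F) : QuotOK F J' where
  le := hJ'
  pow_le := by
    obtain ⟨n, hn⟩ := h.pow_le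
    exact ⟨n, hn.trans hJ⟩
  fin := by
    haveI := h.fin
    exact Finite.of_surjective (Ideal.Quotient.factor hJ) (Ideal.Quotient.factor_surjective hJ)

theorem inf {J' : Ideal (PolyRing 𝒪)} (h' : QuotOK F J') : QuotOK F (J ⊓ J') where
  le := inf_le_left.trans h.le
  pow_le := by
    obtain ⟨n, hn⟩ := h.pow_le
    obtain ⟨n', hn'⟩ := h'.pow_le
    exact ⟨max n n', le_inf ((Ideal.pow_le_pow_right (le_max_left _ _)).trans hn)
      ((Ideal.pow_le_pow_right (le_max_right _ _)).trans hn')⟩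
  fin := by
    haveI := h.fin
    haveI := h'.fin
    refine Finite.of_injective (fun x : PolyRing 𝒪 ⧸ (J ⊓ J') =>
      (Ideal.Quotient.factor (inf_le_left : J ⊓ J' ≤ J) x,
        Ideal.Quotient.factor (inf_le_right : J ⊓ J' ≤ J') x)) ?_
    intro x y hxy
    obtain ⟨p, rfl⟩ := Ideal.Quotient.mk_surjective x
    obtain ⟨q, rfl⟩ := Ideal.Quotient.mk_surjective y
    simp only [Ideal.Quotient.factor_mk, Prod.mk.injEq] at hxy
    rw [Ideal.Quotient.eq, Ideal.Quotient.eq] at hxy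
    rw [Ideal.Quotient.eq]
    exact ⟨hxy.1, hxy.2⟩

end QuotOK

end

section Good

variable {𝒪 : Type} [CommRing 𝒪] [IsLocalRing 𝒪]
  {ρbar : ResidualGaloisRep (ResidueField 𝒪)} (F : Frame 𝒪 ρbar)
  (𝒟 : ∀ ⦃A : Type⦄ [CommRing A] [IsLocalRing A] [Algebra 𝒪 A], GaloisRepAdic A → Prop)

/-- good ideals -/
structure Good (J : Ideal (PolyRing 𝒪)) : Prop where
  ok : QuotOK F J
  isDef : ∃ _ : IsLocalRing (PolyRing 𝒪 ⧸ J),
    IsDef F 𝒟 (fun σ => (Xm 𝒪 σ).map (Ideal.Quotient.mkₐ 𝒪 J))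

variable {F 𝒟}

theorem Good.isDef' {J : Ideal (PolyRing 𝒪)} (h : Good F 𝒟 J) [IsLocalRing (PolyRing 𝒪 ⧸ J)] :
    IsDef F 𝒟 (fun σ => (Xm 𝒪 σ).map (Ideal.Quotient.mkₐ 𝒪 J)) := by
  obtain ⟨_, h1⟩ := h.isDef
  exact h1

theorem isLocalHom_of_quotOK {J J' : Ideal (PolyRing 𝒪)} (h : QuotOK F J) (h' : QuotOK F J')
    [IsLocalRing (PolyRing 𝒪 ⧸ J)] [IsLocalRing (PolyRing 𝒪 ⧸ J')] (hJ : J ≤ J') :
    IsLocalHom ((Ideal.Quotient.factorₐ 𝒪 hJ : PolyRing 𝒪 ⧸ J →ₐ[𝒪] PolyRing 𝒪 ⧸ J') :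
      PolyRing 𝒪 ⧸ J →+* PolyRing 𝒪 ⧸ J') := by
  constructor
  intro x hx
  obtain ⟨p, rfl⟩ := Ideal.Quotient.mk_surjective x
  by_contra h1
  have h2 : p ∈ mIdeal F := h.mk_mem_iff.mp h1
  exact h'.mk_mem_iff.mpr h2 hx

theorem Good.mono (h𝒟 : IsDeformationCondition 𝒪 𝒟) {J J' : Ideal (PolyRing 𝒪)}
    (h : Good F 𝒟 J) (hJ : J ≤ J') (hJ' : J' ≤ mIdeal F) : Good F 𝒟 J' := by
  have h' := h.ok.mono hJ hJ'
  haveI := h.ok.isLocalRing
  haveI := h'.isLocalRing
  refine ⟨h', inferInstance, ?_⟩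
  exact h.isDef'.map h𝒟 h.ok.isTest h'.isTest (Ideal.Quotient.factorₐ 𝒪 hJ)
    (isLocalHom_of_quotOK h.ok h' hJ)

theorem Good.inf (h𝒟 : IsDeformationCondition 𝒪 𝒟) {J J' : Ideal (PolyRing 𝒪)}
    (h : Good F 𝒟 J) (h' : Good F 𝒟 J') : Good F 𝒟 (J ⊓ J') := by
  have hi := h.ok.inf h'.ok
  have hs := h.ok.mono (le_sup_left (b := J')) (sup_le h.ok.le h'.ok.le)
  haveI := h.ok.isLocalRing
  haveI := h'.ok.isLocalRing
  haveI := hi.isLocalRing
  haveI := hs.isLocalRing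
  refine ⟨hi, inferInstance, ?_⟩
  refine IsDef.of_fibre h𝒟 h.ok.isTest h'.ok.isTest hs.isTest hi.isTest
    (Ideal.Quotient.factorₐ 𝒪 (le_sup_left : J ≤ J ⊔ J'))
    (Ideal.Quotient.factorₐ 𝒪 (le_sup_right : J' ≤ J ⊔ J'))
    (Ideal.Quotient.factorₐ 𝒪 (inf_le_left : J ⊓ J' ≤ J))
    (Ideal.Quotient.factorₐ 𝒪 (inf_le_right : J ⊓ J' ≤ J'))
    (isLocalHom_of_quotOK hi h.ok inf_le_left) (isLocalHom_of_quotOK hi h'.ok inf_le_right)
    ?_ ?_ ?_ h.isDef' h'.isDef'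
  · ext x
    obtain ⟨p, rfl⟩ := Ideal.Quotient.mk_surjective x
    rfl
  · intro x y hxy
    obtain ⟨p, rfl⟩ := Ideal.Quotient.mk_surjective x
    obtain ⟨q, rfl⟩ := Ideal.Quotient.mk_surjective y
    have h1 : Ideal.Quotient.mk J p = Ideal.Quotient.mk J q := congrArg Prod.fst hxy
    have h2 : Ideal.Quotient.mk J' p = Ideal.Quotient.mk J' q := congrArg Prod.snd hxy
    rw [Ideal.Quotient.eq] at h1 h2 ⊢
    exact ⟨h1, h2⟩
  · intro a b hab
    obtain ⟨p, rfl⟩ := Ideal.Quotient.mk_surjective a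
    obtain ⟨q, rfl⟩ := Ideal.Quotient.mk_surjective b
    have h1 : Ideal.Quotient.mk (J ⊔ J') p = Ideal.Quotient.mk (J ⊔ J') q := hab
    rw [Ideal.Quotient.eq] at h1
    obtain ⟨u, hu, v, hv, huv⟩ := Submodule.mem_sup.mp h1
    refine ⟨Ideal.Quotient.mk _ (p - u), ?_, ?_⟩
    · show Ideal.Quotient.mk J (p - u) = Ideal.Quotient.mk J p
      rw [Ideal.Quotient.eq]
      have : p - u - p = -u := by ring
      rw [this]; exact neg_mem hu
    · show Ideal.Quotient.mk J' (p - u) = Ideal.Quotient.mk J' q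
      rw [Ideal.Quotient.eq]
      have : p - u - q = v := by linear_combination -huv
      rw [this]; exact hv

/-- kernels of deformations to finite test algebras are good -/
theorem good_ker (h𝒟 : IsDeformationCondition 𝒪 𝒟) {A : Type} [CommRing A] [IsLocalRing A]
    [Algebra 𝒪 A] [Finite A] (hA : IsArtinianTestAlgebra 𝒪 A)
    (h : PolyRing 𝒪 →ₐ[𝒪] A) (hd : IsDef F 𝒟 (fun σ => (Xm 𝒪 σ).map h)) :
    Good F 𝒟 (RingHom.ker h) := by
  haveI := hA.isLocalHom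
  have hm : ∀ p ∈ mIdeal F, h p ∈ maximalIdeal A := fun p hp =>
    map_mem_of_mem_mIdeal F h hd.res hp
  have hle : RingHom.ker h ≤ mIdeal F := by
    intro p hp
    obtain ⟨a, ha⟩ := exists_sub_mem_mIdeal F p
    have h1 := hm _ ha
    rw [map_sub, (RingHom.mem_ker (f := h)).mp hp, zero_sub, neg_mem_iff, AlgHom.commutes] at h1
    have h2 : a ∈ maximalIdeal 𝒪 := by
      intro hu
      exact h1 (hu.map (algebraMap 𝒪 A))
    have h3 := Ideal.add_mem _ ha ((algebraMap_mem_mIdeal F).mpr h2)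
    simpa using h3
  have hok : QuotOK F (RingHom.ker h) := by
    refine ⟨hle, ?_, ?_⟩
    · obtain ⟨N, hN⟩ := exists_maximalIdeal_pow_eq_bot hA
      refine ⟨N, fun p hp => ?_⟩
      have h1 : h p ∈ maximalIdeal A ^ N := by
        have h2 : (mIdeal F).map h ≤ maximalIdeal A := by
          rw [Ideal.map_le_iff_le_comap]
          exact hm
        have h3 := Ideal.mem_map_of_mem h hp
        rw [Ideal.map_pow] at h3
        exact Ideal.pow_right_mono h2 N h3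
      rw [hN] at h1
      exact h1
    · exact Finite.of_injective _ (Ideal.kerLiftAlg_injective h)
  haveI := hok.isLocalRing
  refine ⟨hok, inferInstance, ?_⟩
  refine IsDef.of_injective h𝒟 hok.isTest hA (Ideal.kerLiftAlg h) ?_
    (Ideal.kerLiftAlg_injective h) hd
  constructor
  intro x hx
  obtain ⟨p, rfl⟩ := Ideal.Quotient.mk_surjective x
  by_contra h1
  have h2 : p ∈ mIdeal F := hok.mk_mem_iff.mp h1
  exact hm p h2 hx

end Good

end Fermat.Agent.DefRing
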