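import Mathlib
import Fermat.Agent.DefRing.Good

/-!
Consequences of the finiteness of the tangent space.
-/

set_option autoImplicit false
set_option linter.unusedSectionVars false
set_option linter.style.haveILetI false

open scoped TensorProduct

namespace Fermat.Agent.DefRing

open IsLocalRing Module GaloisRep

section

variable {𝒪 : Type} [CommRing 𝒪] [IsLocalRing 𝒪]
  {ρbar : ResidualGaloisRep (ResidueField 𝒪)} {F : Frame 𝒪 ρbar}
  {𝒟 : ∀ ⦃A : Type⦄ [CommRing A] [IsLocalRing A] [Algebra 𝒪 A], GaloisRepAdic A → Prop}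

/-- the algebra structure on dual numbers used in `TangentFinite` -/
noncomputable abbrev dualAlg (𝒪 : Type) [CommRing 𝒪] [IsLocalRing 𝒪] :
    Algebra 𝒪 (DualNumber (ResidueField 𝒪)) :=
  ((algebraMap (ResidueField 𝒪) (DualNumber (ResidueField 𝒪))).comp
      (algebraMap 𝒪 (ResidueField 𝒪))).toAlgebra

theorem dual_isTest [Finite (ResidueField 𝒪)] : letI := dualAlg 𝒪
    IsArtinianTestAlgebra 𝒪 (DualNumber (ResidueField 𝒪)) := by
  letI := dualAlg 𝒪
  have hmap : ∀ a : 𝒪, algebraMap 𝒪 (DualNumber (ResidueField 𝒪)) a =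
      TrivSqZeroExt.inl (residue 𝒪 a) := fun a => rfl
  refine ⟨?_, ?_, ?_⟩
  · constructor
    intro a ha
    rw [hmap] at ha
    have h1 := ha.map (TrivSqZeroExt.fstHom (ResidueField 𝒪) (ResidueField 𝒪) (ResidueField 𝒪))
    rw [TrivSqZeroExt.fstHom_apply, TrivSqZeroExt.fst_inl] at h1
    exact isUnit_of_map_unit (residue 𝒪) _ h1
  · intro x
    obtain ⟨y, rfl⟩ := residue_surjective x
    obtain ⟨a, ha⟩ := residue_surjective (TrivSqZeroExt.fst y)
    refine ⟨a, ?_⟩
    rw [Function.comp_apply, hmap, ha, ← sub_eq_zero, ← map_sub, residue_eq_zero_iff]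
    have h1 : TrivSqZeroExt.inl (TrivSqZeroExt.fst y) - y =
        TrivSqZeroExt.inr (- TrivSqZeroExt.snd y) := by
      ext <;> simp
    rw [h1]
    intro hu
    have h2 := hu.map (TrivSqZeroExt.fstHom (ResidueField 𝒪) (ResidueField 𝒪) (ResidueField 𝒪))
    rw [TrivSqZeroExt.fstHom_apply, TrivSqZeroExt.fst_inr] at h2
    exact not_isUnit_zero h2
  · haveI : Finite (DualNumber (ResidueField 𝒪)) :=
      inferInstanceAs (Finite (ResidueField 𝒪 × ResidueField 𝒪))
    infer_instance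

theorem finite_isDef_dual [Finite (ResidueField 𝒪)] (hfin : TangentFinite 𝒪 ρbar 𝒟) :
    letI := dualAlg 𝒪
    Finite {φ : PolyRing 𝒪 →ₐ[𝒪] DualNumber (ResidueField 𝒪) //
      IsDef F 𝒟 (fun σ => (Xm 𝒪 σ).map φ)} := by
  letI := dualAlg 𝒪
  have htest := dual_isTest (𝒪 := 𝒪)
  haveI := htest.isLocalHom
  letI alg2 : Algebra (ResidueField 𝒪) (ResidueField (DualNumber (ResidueField 𝒪))) :=
    ((IsLocalRing.residue (DualNumber (ResidueField 𝒪))).comp
      (algebraMap (ResidueField 𝒪) (DualNumber (ResidueField 𝒪)))).toAlgebra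
  have hringhom : ResidueField.map (algebraMap 𝒪 (DualNumber (ResidueField 𝒪))) =
      (IsLocalRing.residue (DualNumber (ResidueField 𝒪))).comp
      (algebraMap (ResidueField 𝒪) (DualNumber (ResidueField 𝒪))) := by
    ext x
    obtain ⟨a, rfl⟩ := residue_surjective x
    rw [ResidueField.map_residue]
    rfl
  have hbc : ∀ ρ : GaloisRepAdic (DualNumber (ResidueField 𝒪)),
      ρ.residual.IsEquiv (ρbar.baseChangeAlong
        (ResidueField.map (algebraMap 𝒪 (DualNumber (ResidueField 𝒪))))) →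
      ρ.residual.IsEquiv (ρbar.baseChange (ResidueField (DualNumber (ResidueField 𝒪)))) := by
    intro ρ h
    rw [hringhom] at h
    exact h
  refine @Finite.of_injective _ _ hfin
    (fun φ => Quotient.mk _ ⟨φ.2.real.choose, φ.2.real.choose_spec.1,
      hbc _ (residual_isEquiv_of_resOK F φ.2.real.choose_spec.2 φ.2.res)⟩) ?_
  intro φ ψ h
  have h1 : φ.2.real.choose.IsEquiv ψ.2.real.choose := Quotient.exact h
  have h2 := φ.2.real.choose_spec.2.of_isEquiv h1
  have h3 := φ.2.realizes_unique ψ.2 h2 ψ.2.real.choose_spec.2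
  exact Subtype.ext (hom_ext_of_Xm h3)

theorem good_mIdeal [Finite (ResidueField 𝒪)] (h𝒟 : IsDeformationCondition 𝒪 𝒟)
    (hbar : 𝒟 (GaloisRepAdic.ofResidualGaloisRep ρbar)) : Good F 𝒟 (mIdeal F) := by
  have htest : IsArtinianTestAlgebra 𝒪 (ResidueField 𝒪) := by
    refine ⟨?_, ?_, inferInstance⟩
    · exact inferInstanceAs (IsLocalHom (residue 𝒪))
    · intro x
      obtain ⟨y, rfl⟩ := residue_surjective x
      obtain ⟨a, rfl⟩ := residue_surjective y
      exact ⟨a, rfl⟩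
  refine good_ker h𝒟 htest (resHom F) ?_
  have h1 : (fun σ => (Xm 𝒪 σ).map (resHom F)) = (fun σ => (F.rt σ).map (residue 𝒪)) :=
    Xm_map_homOf _
  rw [h1]
  refine ⟨?_, ?_, _, hbar, F.real⟩
  · intro σ i j
    have : ((F.rt σ).map (residue 𝒪)) i j - algebraMap 𝒪 (ResidueField 𝒪) (F.rt σ i j) = 0 :=
      sub_self _
    rw [this]
    exact Ideal.zero_mem _
  · have h2 : ∀ (s : Finset Γ) (c : Γ → 𝒪), lin (A := ResidueField 𝒪) s c
        (fun σ => (F.rt σ).map (residue 𝒪)) =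
        ∑ σ ∈ s, residue 𝒪 (c σ) • (F.rt σ).map (residue 𝒪) := fun s c => rfl
    refine ⟨?_, ?_, ?_⟩
    · rw [h2, F.h1]; rfl
    · rw [h2, F.h1]; rfl
    · rw [h2, F.h2]; rfl

theorem good_finite_inf (h𝒟 : IsDeformationCondition 𝒪 𝒟) (hm : Good F 𝒟 (mIdeal F))
    {T : Set (Ideal (PolyRing 𝒪))} (hT : T.Finite) (hgood : ∀ J ∈ T, Good F 𝒟 J) :
    Good F 𝒟 (mIdeal F ⊓ sInf T) := by
  induction T, hT using Set.Finite.induction_on with
  | empty => simpa using hm
  | @insert J T _ _ ih =>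
    rw [sInf_insert, ← inf_assoc, inf_comm (mIdeal F) J, inf_assoc]
    exact (hgood J (Set.mem_insert _ _)).inf h𝒟 (ih fun J' hJ' =>
      hgood J' (Set.mem_insert_of_mem _ hJ'))

variable (F) in
/-- the ideal `m ^ 2 + ϖ` -/
noncomputable def nIdeal : Ideal (PolyRing 𝒪) :=
  mIdeal F ^ 2 ⊔ (maximalIdeal 𝒪).map (algebraMap 𝒪 (PolyRing 𝒪))

theorem nIdeal_le : nIdeal F ≤ mIdeal F := by
  refine sup_le (Ideal.pow_le_self two_ne_zero) ?_
  rw [Ideal.map_le_iff_le_comap]
  intro a ha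
  exact (algebraMap_mem_mIdeal F).mpr ha

/-- separating tangent vectors -/
theorem exists_dual_hom (J : Ideal (PolyRing 𝒪)) (hJ : QuotOK F J) (hn : nIdeal F ≤ J)
    (y : PolyRing 𝒪) (hy : y ∈ mIdeal F) (hyJ : y ∉ J) :
    letI := dualAlg 𝒪
    ∃ φ : PolyRing 𝒪 →ₐ[𝒪] DualNumber (ResidueField 𝒪), J ≤ RingHom.ker φ ∧ φ y ≠ 0 ∧
      ∀ p, TrivSqZeroExt.fst (φ p) = resHom F p := by
  letI := dualAlg 𝒪
  haveI := hJ.isLocalRing
  let κ : ResidueField 𝒪 →+* PolyRing 𝒪 ⧸ J :=
    Ideal.Quotient.lift (maximalIdeal 𝒪) (algebraMap 𝒪 (PolyRing 𝒪 ⧸ J)) (by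
      intro a ha
      have h1 : algebraMap 𝒪 (PolyRing 𝒪) a ∈ J :=
        hn (le_sup_right (a := mIdeal F ^ 2) (Ideal.mem_map_of_mem _ ha))
      exact (Ideal.Quotient.eq_zero_iff_mem).mpr h1)
  have hκ : ∀ a : 𝒪, κ (residue 𝒪 a) = Ideal.Quotient.mk J (algebraMap 𝒪 (PolyRing 𝒪) a) :=
    fun a => rfl
  letI : Algebra (ResidueField 𝒪) (PolyRing 𝒪 ⧸ J) := κ.toAlgebra
  have hsmul : ∀ (c : ResidueField 𝒪) (z : PolyRing 𝒪 ⧸ J), c • z = κ c * z := fun c z => rfl
  -- every element is residual part plus element of the maximal ideal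
  have hdecomp : ∀ p : PolyRing 𝒪, Ideal.Quotient.mk J p - κ (resHom F p) ∈
      maximalIdeal (PolyRing 𝒪 ⧸ J) := by
    intro p
    obtain ⟨a, ha⟩ := residue_surjective (resHom F p)
    rw [← ha, hκ, ← map_sub, hJ.mk_mem_iff, mem_mIdeal, map_sub, AlgHom.commutes, ← ha]
    exact sub_self _
  have hsq : ∀ u v : PolyRing 𝒪 ⧸ J, u ∈ maximalIdeal (PolyRing 𝒪 ⧸ J) →
      v ∈ maximalIdeal (PolyRing 𝒪 ⧸ J) → u * v = 0 := by
    intro u v hu hv
    obtain ⟨p, rfl⟩ := Ideal.Quotient.mk_surjective u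
    obtain ⟨q, rfl⟩ := Ideal.Quotient.mk_surjective v
    rw [hJ.mk_mem_iff] at hu hv
    rw [← map_mul, Ideal.Quotient.eq_zero_iff_mem]
    apply hn
    refine (le_sup_left : mIdeal F ^ 2 ≤ _) ?_
    rw [pow_two]
    exact Ideal.mul_mem_mul hu hv
  have hy1 : Ideal.Quotient.mk J y ∉ Submodule.span (ResidueField 𝒪) {(1 : PolyRing 𝒪 ⧸ J)} := by
    intro h1
    obtain ⟨c, hc⟩ := Submodule.mem_span_singleton.mp h1
    rw [hsmul, mul_one] at hc
    obtain ⟨a, rfl⟩ := residue_surjective c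
    rw [hκ, Ideal.Quotient.eq] at hc
    have h2 : algebraMap 𝒪 (PolyRing 𝒪) a ∈ mIdeal F := by
      have := Ideal.add_mem _ (hJ.le hc) hy
      simpa using this
    have h3 : algebraMap 𝒪 (PolyRing 𝒪) a ∈ J :=
      hn (le_sup_right (a := mIdeal F ^ 2)
        (Ideal.mem_map_of_mem _ ((algebraMap_mem_mIdeal F).mp h2)))
    apply hyJ
    have := Ideal.sub_mem _ h3 hc
    simpa using this
  obtain ⟨l, hly, hl1⟩ := Submodule.exists_le_ker_of_notMem hy1
  have hl1' : l 1 = 0 := hl1 (Submodule.mem_span_singleton_self _)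
  have hlκ : ∀ (c : ResidueField 𝒪) (z : PolyRing 𝒪 ⧸ J), l (κ c * z) = c * l z := by
    intro c z
    rw [← hsmul, map_smul, smul_eq_mul]
  have hlκ1 : ∀ c : ResidueField 𝒪, l (κ c) = 0 := by
    intro c
    have := hlκ c 1
    rw [mul_one, hl1', mul_zero] at this
    exact this
  let φ : PolyRing 𝒪 →ₐ[𝒪] DualNumber (ResidueField 𝒪) :=
    { toFun := fun p => TrivSqZeroExt.inl (resHom F p) + TrivSqZeroExt.inr (l (Ideal.Quotient.mk J p))
      map_one' := by
        rw [map_one, map_one, hl1']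
        simp
      map_mul' := by
        intro p q
        rw [map_mul, map_mul]
        have h3 : Ideal.Quotient.mk J p * Ideal.Quotient.mk J q =
            κ (resHom F p) * (Ideal.Quotient.mk J q) + κ (resHom F q) * (Ideal.Quotient.mk J p)
              - κ (resHom F p * resHom F q) := by
          have h4 := hsq _ _ (hdecomp p) (hdecomp q)
          rw [map_mul]
          linear_combination h4
        rw [h3, map_sub, map_add, hlκ, hlκ, hlκ1, sub_zero]
        ext
        · simp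
        · simp
          ring
      map_zero' := by
        rw [map_zero, map_zero, map_zero]
        simp
      map_add' := by
        intro p q
        rw [map_add, map_add, map_add]
        ext <;> simp
      commutes' := by
        intro a
        rw [AlgHom.commutes]
        have h5 : Ideal.Quotient.mk J (algebraMap 𝒪 (PolyRing 𝒪) a) = κ (residue 𝒪 a) := rfl
        rw [h5, hlκ1, TrivSqZeroExt.inr_zero, add_zero]
        rfl }
  have hφ : ∀ p, φ p = TrivSqZeroExt.inl (resHom F p) +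
    TrivSqZeroExt.inr (l (Ideal.Quotient.mk J p)) := fun p => rfl
  refine ⟨φ, ?_, ?_, ?_⟩
  · intro p hp
    rw [RingHom.mem_ker, hφ, (Ideal.Quotient.eq_zero_iff_mem).mpr hp, map_zero,
      (mem_mIdeal F).mp (hJ.le hp)]
    simp
  · intro h6
    apply hly
    have := congrArg TrivSqZeroExt.snd h6
    rw [hφ] at this
    simpa using this
  · intro p
    rw [hφ]
    simp

end

end Fermat.Agent.DefRing
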