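import Mathlib
import Fermat.Agent.DefRing.Tangent

/-!
The chain of minimal good ideals containing the powers of the maximal ideal.
-/

set_option autoImplicit false
set_option linter.unusedSectionVars false
set_option linter.style.haveILetI false

open scoped TensorProduct

namespace Fermat.Agent.DefRing

open IsLocalRing Module GaloisRep

section

variable {𝒪 : Type} [CommRing 𝒪] [IsLocalRing 𝒪] [Finite (ResidueField 𝒪)]
  {ρbar : ResidualGaloisRep (ResidueField 𝒪)} {F : Frame 𝒪 ρbar}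
  {𝒟 : ∀ ⦃A : Type⦄ [CommRing A] [IsLocalRing A] [Algebra 𝒪 A], GaloisRepAdic A → Prop}

/-- there is a good ideal contained in `J ⊔ (m ^ 2 + ϖ)` for every good `J` -/
theorem exists_good_star (h𝒟 : IsDeformationCondition 𝒪 𝒟)
    (hbar : 𝒟 (GaloisRepAdic.ofResidualGaloisRep ρbar)) (hfin : TangentFinite 𝒪 ρbar 𝒟) :
    ∃ Js, Good F 𝒟 Js ∧ ∀ J, Good F 𝒟 J → Js ≤ J ⊔ nIdeal F := by
  letI := dualAlg 𝒪
  have htest := dual_isTest (𝒪 := 𝒪)
  haveI := htest.isLocalHom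
  haveI := finite_isDef_dual (F := F) hfin
  have hm := good_mIdeal (F := F) h𝒟 hbar
  haveI : Finite (DualNumber (ResidueField 𝒪)) :=
      inferInstanceAs (Finite (ResidueField 𝒪 × ResidueField 𝒪))
  let T : Set (Ideal (PolyRing 𝒪)) := Set.range (fun φ : {φ : PolyRing 𝒪 →ₐ[𝒪]
    DualNumber (ResidueField 𝒪) // IsDef F 𝒟 (fun σ => (Xm 𝒪 σ).map φ)} => RingHom.ker φ.1)
  have hTfin : T.Finite := Set.finite_range _
  have hTgood : ∀ J ∈ T, Good F 𝒟 J := by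
    rintro _ ⟨φ, rfl⟩
    exact good_ker h𝒟 htest φ.1 φ.2
  refine ⟨mIdeal F ⊓ sInf T, good_finite_inf h𝒟 hm hTfin hTgood, fun J hJ y hy => ?_⟩
  by_contra hyJ
  have hJ' : Good F 𝒟 (J ⊔ nIdeal F) := hJ.mono h𝒟 le_sup_left (sup_le hJ.ok.le nIdeal_le)
  obtain ⟨φ, hφJ, hφy, hφres⟩ := exists_dual_hom (J ⊔ nIdeal F) hJ'.ok le_sup_right y hy.1 hyJ
  haveI := hJ'.ok.isLocalRing
  apply hφy
  have hφdef : IsDef F 𝒟 (fun σ => (Xm 𝒪 σ).map φ) := by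
    let φ' : PolyRing 𝒪 ⧸ (J ⊔ nIdeal F) →ₐ[𝒪] DualNumber (ResidueField 𝒪) :=
      Ideal.Quotient.liftₐ _ φ hφJ
    have h1 := hJ'.isDef'.map h𝒟 hJ'.ok.isTest htest φ' (by
      constructor
      intro x hx
      obtain ⟨p, rfl⟩ := Ideal.Quotient.mk_surjective x
      by_contra h2
      have h3 : p ∈ mIdeal F := hJ'.ok.mk_mem_iff.mp h2
      have h4 : IsUnit (φ p) := hx
      have h5 := h4.map (TrivSqZeroExt.fstHom (ResidueField 𝒪) (ResidueField 𝒪) (ResidueField 𝒪))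
      rw [TrivSqZeroExt.fstHom_apply, hφres, (mem_mIdeal F).mp h3] at h5
      exact not_isUnit_zero h5)
    exact h1
  have h6 : sInf T ≤ RingHom.ker φ := sInf_le ⟨⟨φ, hφdef⟩, rfl⟩
  exact h6 hy.2

theorem exists_gens (h𝒟 : IsDeformationCondition 𝒪 𝒟)
    (hbar : 𝒟 (GaloisRepAdic.ofResidualGaloisRep ρbar)) (hfin : TangentFinite 𝒪 ρbar 𝒟) :
    ∃ (d : ℕ) (x : Fin d → PolyRing 𝒪), (∀ i, x i ∈ mIdeal F) ∧
      ∀ J, Good F 𝒟 J → ∀ p, ∃ q : MvPolynomial (Fin d) 𝒪, p - MvPolynomial.aeval x q ∈ J := by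
  classical
  obtain ⟨Js, hJs, hstar⟩ := exists_good_star (F := F) h𝒟 hbar hfin
  haveI := hJs.ok.fin
  let e := (Finite.equivFin (PolyRing 𝒪 ⧸ Js)).symm
  let x : Fin (Nat.card (PolyRing 𝒪 ⧸ Js)) → PolyRing 𝒪 := fun i =>
    if h : ∃ y ∈ mIdeal F, Ideal.Quotient.mk Js y = e i then h.choose else 0
  have hx : ∀ i, x i ∈ mIdeal F := by
    intro i
    simp only [x]
    split_ifs with h
    · exact h.choose_spec.1
    · exact Ideal.zero_mem _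
  have hx2 : ∀ y ∈ mIdeal F, ∃ i, y - x i ∈ Js := by
    intro y hy
    refine ⟨e.symm (Ideal.Quotient.mk Js y), ?_⟩
    have h : ∃ y' ∈ mIdeal F, Ideal.Quotient.mk Js y' = e (e.symm (Ideal.Quotient.mk Js y)) :=
      ⟨y, hy, by rw [Equiv.apply_symm_apply]⟩
    simp only [x]
    rw [dif_pos h, ← Ideal.Quotient.eq]
    exact (h.choose_spec.2.trans (Equiv.apply_symm_apply _ _)).symm
  refine ⟨_, x, hx, fun J hJ => ?_⟩
  set B : Subalgebra 𝒪 (PolyRing 𝒪) := (MvPolynomial.aeval x : MvPolynomial _ 𝒪 →ₐ[𝒪] _).range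
    with hB
  -- step 1
  have hϖ : ∀ t ∈ (maximalIdeal 𝒪).map (algebraMap 𝒪 (PolyRing 𝒪)),
      ∃ β ∈ B, β ∈ mIdeal F ∧ t - β ∈ mIdeal F ^ 2 := by
    intro t ht
    refine Submodule.span_induction (p := fun t _ => ∃ β ∈ B, β ∈ mIdeal F ∧ t - β ∈ mIdeal F ^ 2)
      ?_ ?_ ?_ ?_ ht
    · rintro _ ⟨a, ha, rfl⟩
      refine ⟨algebraMap 𝒪 _ a, B.algebraMap_mem a, (algebraMap_mem_mIdeal F).mpr ha, ?_⟩
      rw [sub_self]
      exact Ideal.zero_mem _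
    · exact ⟨0, B.zero_mem, Ideal.zero_mem _, by rw [sub_self]; exact Ideal.zero_mem _⟩
    · rintro u v _ _ ⟨β, hβ, hβm, hβ2⟩ ⟨γ, hγ, hγm, hγ2⟩
      refine ⟨β + γ, B.add_mem hβ hγ, Ideal.add_mem _ hβm hγm, ?_⟩
      rw [add_sub_add_comm]
      exact Ideal.add_mem _ hβ2 hγ2
    · rintro c u _ ⟨β, hβ, hβm, hβ2⟩
      obtain ⟨a, ha⟩ := exists_sub_mem_mIdeal F c
      refine ⟨algebraMap 𝒪 _ a * β, B.mul_mem (B.algebraMap_mem a) hβ,
        Ideal.mul_mem_left _ _ hβm, ?_⟩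
      have h1 : c • u - algebraMap 𝒪 _ a * β = c * (u - β) + (c - algebraMap 𝒪 _ a) * β := by
        rw [smul_eq_mul]; ring
      rw [h1]
      refine Ideal.add_mem _ (Ideal.mul_mem_left _ _ hβ2) ?_
      rw [pow_two]
      exact Ideal.mul_mem_mul ha hβm
  have hstep1 : ∀ y ∈ mIdeal F, ∃ β ∈ B, β ∈ mIdeal F ∧ y - β ∈ J ⊔ mIdeal F ^ 2 := by
    intro y hy
    obtain ⟨i, hi⟩ := hx2 y hy
    have h1 := hstar J hJ hi
    obtain ⟨j, hj, z, hz, hjz⟩ := Submodule.mem_sup.mp h1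
    obtain ⟨s, hs, t, ht, hst⟩ := Submodule.mem_sup.mp hz
    obtain ⟨β, hβ, hβm, hβ2⟩ := hϖ t ht
    refine ⟨x i + β, B.add_mem ⟨MvPolynomial.X i, MvPolynomial.aeval_X _ _⟩ hβ,
      Ideal.add_mem _ (hx i) hβm, ?_⟩
    have h2 : y - (x i + β) = j + (s + (t - β)) := by linear_combination -hjz - hst
    rw [h2]
    exact Submodule.add_mem_sup hj (Ideal.add_mem _ hs hβ2)
  have hstep2 : ∀ n, ∀ y ∈ mIdeal F ^ n, ∃ β ∈ B, y - β ∈ J ⊔ mIdeal F ^ (n + 1) := by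
    intro n
    induction n with
    | zero =>
      intro y _
      obtain ⟨a, ha⟩ := exists_sub_mem_mIdeal F y
      refine ⟨algebraMap 𝒪 _ a, B.algebraMap_mem a, ?_⟩
      rw [zero_add, pow_one]
      exact (le_sup_right : mIdeal F ≤ _) ha
    | succ n ih =>
      intro y hy
      rw [pow_succ'] at hy
      refine Submodule.mul_induction_on hy ?_ ?_
      · intro z hz w hw
        obtain ⟨β, hβ, hβm, hβ2⟩ := hstep1 z hz
        obtain ⟨γ, hγ, hγ2⟩ := ih w hw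
        refine ⟨β * γ, B.mul_mem hβ hγ, ?_⟩
        have h1 : z * w - β * γ = (z - β) * w + β * (w - γ) := by ring
        rw [h1]
        refine Ideal.add_mem _ ?_ ?_
        · have h2 := Ideal.mul_mem_mul hβ2 hw
          refine (?_ : (J ⊔ mIdeal F ^ 2) * mIdeal F ^ n ≤ J ⊔ mIdeal F ^ (n + 1 + 1)) h2
          rw [Ideal.sup_mul, ← pow_add]
          exact sup_le_sup Ideal.mul_le_left (Ideal.pow_le_pow_right (by omega))
        · have h2 := Ideal.mul_mem_mul hβm hγ2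
          refine (?_ : mIdeal F * (J ⊔ mIdeal F ^ (n + 1)) ≤ J ⊔ mIdeal F ^ (n + 1 + 1)) h2
          rw [Ideal.mul_sup, ← pow_succ']
          exact sup_le_sup Ideal.mul_le_right le_rfl
      · rintro u v ⟨β, hβ, hβ2⟩ ⟨γ, hγ, hγ2⟩
        refine ⟨β + γ, B.add_mem hβ hγ, ?_⟩
        rw [add_sub_add_comm]
        exact Ideal.add_mem _ hβ2 hγ2
  have hstep3 : ∀ n, ∀ p : PolyRing 𝒪, ∃ β ∈ B, p - β ∈ J ⊔ mIdeal F ^ n := by
    intro n
    induction n with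
    | zero =>
      intro p
      refine ⟨0, B.zero_mem, ?_⟩
      rw [pow_zero, Ideal.one_eq_top, sup_top_eq]
      trivial
    | succ n ih =>
      intro p
      obtain ⟨β, hβ, hβ2⟩ := ih p
      obtain ⟨j, hj, y, hy, hjy⟩ := Submodule.mem_sup.mp hβ2
      obtain ⟨γ, hγ, hγ2⟩ := hstep2 n y hy
      refine ⟨β + γ, B.add_mem hβ hγ, ?_⟩
      have h1 : p - (β + γ) = j + (y - γ) := by linear_combination -hjy
      rw [h1]
      exact Ideal.add_mem _ ((le_sup_left : J ≤ _) hj) hγ2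
  intro p
  obtain ⟨N, hN⟩ := hJ.ok.pow_le
  obtain ⟨β, ⟨q, hq⟩, hβ2⟩ := hstep3 N p
  refine ⟨q, ?_⟩
  rw [sup_eq_left.mpr hN] at hβ2
  have : MvPolynomial.aeval x q = β := hq
  rw [this]
  exact hβ2

variable (F 𝒟) in
/-- the chain -/
noncomputable def chain (n : ℕ) : Ideal (PolyRing 𝒪) :=
  sInf {J | Good F 𝒟 J ∧ mIdeal F ^ n ≤ J}

theorem pow_le_chain (n : ℕ) : mIdeal F ^ n ≤ chain F 𝒟 n := le_sInf fun _ hJ => hJ.2

theorem chain_le {n : ℕ} {J : Ideal (PolyRing 𝒪)} (hJ : Good F 𝒟 J) (hn : mIdeal F ^ n ≤ J) :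
    chain F 𝒟 n ≤ J := sInf_le ⟨hJ, hn⟩

theorem chain_zero : chain F 𝒟 0 = ⊤ := by
  have : {J | Good F 𝒟 J ∧ mIdeal F ^ 0 ≤ J} = ∅ := by
    rw [Set.eq_empty_iff_forall_notMem]
    rintro J ⟨hJ, h0⟩
    rw [pow_zero, Ideal.one_eq_top, top_le_iff] at h0
    have h1 := hJ.ok.le
    rw [h0, top_le_iff] at h1
    exact (mIdeal_isMaximal F).ne_top h1
  rw [chain, this, sInf_empty]

theorem finite_quotient_comap [IsNoetherianRing 𝒪] (hm : QuotOK F (mIdeal F))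
    {d : ℕ} (ψ : MvPolynomial (Fin d) 𝒪 →ₐ[𝒪] PolyRing 𝒪) (n : ℕ) :
    Finite (MvPolynomial (Fin d) 𝒪 ⧸ ((mIdeal F).comap ψ) ^ n) := by
  haveI : Finite (PolyRing 𝒪 ⧸ mIdeal F) := hm.fin
  have hinj : Function.Injective (Ideal.quotientMap (I := (mIdeal F).comap ψ) (mIdeal F)
      (ψ : MvPolynomial (Fin d) 𝒪 →+* PolyRing 𝒪) le_rfl) := Ideal.quotientMap_injective
  haveI : Finite (MvPolynomial (Fin d) 𝒪 ⧸ (mIdeal F).comap ψ) :=
    Finite.of_injective _ hinj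
  exact Ideal.finite_quotient_pow (IsNoetherian.noetherian _) n

theorem finite_goodSet [IsNoetherianRing 𝒪] (h𝒟 : IsDeformationCondition 𝒪 𝒟)
    (hm : QuotOK F (mIdeal F)) {d : ℕ} (ψ : MvPolynomial (Fin d) 𝒪 →ₐ[𝒪] PolyRing 𝒪)
    (hgen : ∀ J, Good F 𝒟 J → ∀ p, ∃ q : MvPolynomial (Fin d) 𝒪, p - ψ q ∈ J) (n : ℕ) :
    {J | Good F 𝒟 J ∧ mIdeal F ^ n ≤ J}.Finite := by
  haveI := finite_quotient_comap hm ψ n
  haveI : Finite (Ideal (MvPolynomial (Fin d) 𝒪 ⧸ ((mIdeal F).comap ψ) ^ n)) :=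
    Finite.of_injective
      (fun I => (I : Set (MvPolynomial (Fin d) 𝒪 ⧸ ((mIdeal F).comap ψ) ^ n)))
      SetLike.coe_injective
  have h𝔮n : ∀ J, mIdeal F ^ n ≤ J → ((mIdeal F).comap ψ) ^ n ≤ J.comap ψ := fun J hJ =>
    (Ideal.le_comap_pow ψ n).trans (Ideal.comap_mono hJ)
  have key : ∀ I I' : Ideal (PolyRing 𝒪), Good F 𝒟 I → Good F 𝒟 I' →
      I.comap ψ = I'.comap ψ → I ≤ I' := by
    intro I I' hI hI' hII p hp
    obtain ⟨q, hq⟩ := hgen _ (hI.inf h𝒟 hI') p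
    have h2 : q ∈ I.comap ψ := by
      have := Ideal.sub_mem _ hp hq.1
      rw [sub_sub_cancel] at this
      exact this
    rw [hII] at h2
    have h3 := Ideal.add_mem _ hq.2 (Ideal.mem_comap.mp h2)
    simpa using h3
  refine Set.Finite.of_injOn
    (f := fun J => (J.comap ψ).map (Ideal.Quotient.mk (((mIdeal F).comap ψ) ^ n)))
    (t := Set.univ) (fun _ _ => trivial) ?_ Set.finite_univ
  intro J hJ J' hJ' h
  have h1 := congrArg (Ideal.comap (Ideal.Quotient.mk (((mIdeal F).comap ψ) ^ n))) h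
  simp only at h1
  rw [Ideal.comap_map_of_surjective' _ Ideal.Quotient.mk_surjective,
    Ideal.comap_map_of_surjective' _ Ideal.Quotient.mk_surjective, Ideal.mk_ker,
    sup_eq_left.mpr (h𝔮n J hJ.2), sup_eq_left.mpr (h𝔮n J' hJ'.2)] at h1
  exact le_antisymm (key J J' hJ.1 hJ'.1 h1) (key J' J hJ'.1 hJ.1 h1.symm)

theorem good_chain [IsNoetherianRing 𝒪] (h𝒟 : IsDeformationCondition 𝒪 𝒟)
    (hm : Good F 𝒟 (mIdeal F)) {d : ℕ} (ψ : MvPolynomial (Fin d) 𝒪 →ₐ[𝒪] PolyRing 𝒪)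
    (hgen : ∀ J, Good F 𝒟 J → ∀ p, ∃ q : MvPolynomial (Fin d) 𝒪, p - ψ q ∈ J)
    {n : ℕ} (hn : 1 ≤ n) : Good F 𝒟 (chain F 𝒟 n) := by
  have h2 := good_finite_inf h𝒟 hm (finite_goodSet h𝒟 hm.ok ψ hgen n) (fun J hJ => hJ.1)
  have h3 : chain F 𝒟 n ≤ mIdeal F := by
    refine chain_le hm ?_
    exact Ideal.pow_le_self (by omega)
  have h4 : mIdeal F ⊓ sInf {J | Good F 𝒟 J ∧ mIdeal F ^ n ≤ J} = chain F 𝒟 n :=
    inf_eq_right.mpr h3
  rw [h4] at h2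
  exact h2

theorem chain_one (hm : Good F 𝒟 (mIdeal F)) : chain F 𝒟 1 = mIdeal F := by
  refine le_antisymm (chain_le hm (by rw [pow_one])) ?_
  have := pow_le_chain (F := F) (𝒟 := 𝒟) 1
  rwa [pow_one] at this

theorem chain_step (h𝒟 : IsDeformationCondition 𝒪 𝒟)
    (hgood : ∀ n, 1 ≤ n → Good F 𝒟 (chain F 𝒟 n)) (n : ℕ) :
    chain F 𝒟 n = chain F 𝒟 (n + 1) ⊔ mIdeal F ^ n := by
  rcases Nat.eq_zero_or_pos n with rfl | hn
  · rw [chain_zero, pow_zero, Ideal.one_eq_top, sup_top_eq]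
  · refine le_antisymm ?_ ?_
    · refine chain_le ((hgood (n + 1) (by omega)).mono h𝒟 le_sup_left ?_) le_sup_right
      exact sup_le (hgood (n + 1) (by omega)).ok.le (Ideal.pow_le_self (by omega))
    · refine sup_le ?_ (pow_le_chain n)
      exact chain_le (hgood n hn) ((Ideal.pow_le_pow_right (by omega)).trans (pow_le_chain n))

end

end Fermat.Agent.DefRing
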