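import Mathlib
import Fermat.Prelude.Thm_IsLocalRing_isAdicComplete_of_module_finite
import Fermat.Agent.DefRing.PowerSeriesComplete

/-!
Construction of a complete noetherian local ring from a chain of ideals with
`J n = J (n+1) ⊔ m ^ n` and uniformly bounded number of generators.
-/

set_option autoImplicit false
set_option linter.unusedSectionVars false
set_option linter.style.haveILetI false

namespace Fermat.Agent.DefRing

open IsLocalRing

section Lift

variable {𝒪 T U A : Type*} [CommRing 𝒪] [CommRing T] [CommRing U] [CommRing A]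
  [Algebra 𝒪 T] [Algebra 𝒪 U] [Algebra 𝒪 A]

theorem exists_lift (W : ℕ → Type*) [∀ n, CommRing (W n)] [∀ n, Algebra 𝒪 (W n)]
    (I : Ideal A) [IsAdicComplete I A]
    (a : ∀ n, T →ₐ[𝒪] W n) (b : ∀ n, U →ₐ[𝒪] W n) (hb : ∀ n, Function.Surjective (b n))
    (c : U →ₐ[𝒪] A) (hbc : ∀ n u, b n u = 0 → c u ∈ I ^ n)
    (hab : ∀ n m, n ≤ m → ∀ t u, a m t = b m u → a n t = b n u) :
    ∃ f : T →ₐ[𝒪] A, ∀ n t u, a n t = b n u → f t - c u ∈ I ^ n := by
  let g : ∀ n, W n →ₐ[𝒪] A ⧸ I ^ n := fun n =>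
    AlgHom.liftOfSurjective (b n) (hb n) ((Ideal.Quotient.mkₐ 𝒪 (I ^ n)).comp c) (by
      intro u hu
      have h1 : b n u = 0 := hu
      show Ideal.Quotient.mk (I ^ n) (c u) = 0
      rw [Ideal.Quotient.eq_zero_iff_mem]
      exact hbc n u h1)
  have hg : ∀ n u, g n (b n u) = Ideal.Quotient.mk (I ^ n) (c u) := fun n u =>
    AlgHom.liftOfSurjective_apply (b n) (hb n) _ _ u
  have hga : ∀ n t u, a n t = b n u → g n (a n t) = Ideal.Quotient.mk (I ^ n) (c u) := by
    intro n t u h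
    rw [h, hg]
  refine ⟨IsAdicComplete.liftAlgHom (R := 𝒪) I (fun n => (g n).comp (a n)) ?_, ?_⟩
  · intro m n hmn
    ext t
    obtain ⟨u, hu⟩ := hb n (a n t)
    have h1 := hga n t u hu.symm
    have h2 := hga m t u (hab m n hmn t u hu.symm)
    simp only [AlgHom.comp_apply]
    rw [h1, h2]
    rfl
  · intro n t u h
    rw [← Ideal.Quotient.eq]
    rw [IsAdicComplete.mk_liftAlgHom]
    exact hga n t u h

theorem exists_limit {S : Type*} [CommRing S] (I : Ideal S) [IsPrecomplete I S] (g : ℕ → S) (n : ℕ)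
    (hg : ∀ j, g (j + 1) - g j ∈ I ^ (n + j)) : ∃ L, ∀ j, L - g j ∈ I ^ (n + j) := by
  have h1 : ∀ i j, g (i + j) - g i ∈ I ^ (n + i) := by
    intro i j
    induction j with
    | zero => simp
    | succ j ih =>
      have := Ideal.add_mem _ (Ideal.pow_le_pow_right (show n + i ≤ n + (i + j) by omega) (hg (i + j))) ih
      simpa [add_assoc] using this
  obtain ⟨L, hL⟩ := IsPrecomplete.prec' (I := I) g (by
    intro i j hij
    obtain ⟨k, rfl⟩ := Nat.exists_eq_add_of_le hij
    rw [SModEq.sub_mem, smul_eq_mul, Ideal.mul_top]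
    have := Ideal.pow_le_pow_right (show i ≤ n + i by omega) (h1 i k)
    rw [← neg_mem_iff]
    simpa using this)
  refine ⟨L, fun j => ?_⟩
  have h2 := hL (n + j)
  rw [SModEq.sub_mem, smul_eq_mul, Ideal.mul_top] at h2
  have h3 := h1 j n
  have h4 := Ideal.sub_mem _ (Ideal.pow_le_pow_right (show n + j ≤ n + j by omega) h3) (by
    have := h2
    rw [show n + j = j + n by ring] at this
    rw [show n + j = j + n by ring]
    exact this : g (j + n) - L ∈ I ^ (n + j))
  simpa using h4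

end Lift

/-- the output of the construction -/
structure LimitRing (𝒪 P : Type) [CommRing 𝒪] [IsLocalRing 𝒪] [CommRing P] [Algebra 𝒪 P]
    (J : ℕ → Ideal P) where
  R : Type
  [instCommRing : CommRing R]
  [instIsLocalRing : IsLocalRing R]
  [instIsNoetherianRing : IsNoetherianRing R]
  [instIsAdicComplete : IsAdicComplete (maximalIdeal R) R]
  [instAlgebra : Algebra 𝒪 R]
  [instIsLocalHom : IsLocalHom (algebraMap 𝒪 R)]
  ι : P →ₐ[𝒪] R
  comap_eq : ∀ n, (maximalIdeal R ^ n).comap ι = J n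
  dense : ∀ n (r : R), ∃ p : P, r - ι p ∈ maximalIdeal R ^ n

attribute [instance] LimitRing.instCommRing LimitRing.instIsLocalRing
  LimitRing.instIsNoetherianRing LimitRing.instIsAdicComplete
  LimitRing.instAlgebra LimitRing.instIsLocalHom

section Construction

variable {𝒪 : Type} [CommRing 𝒪] [IsNoetherianRing 𝒪] [IsLocalRing 𝒪]
  [IsAdicComplete (maximalIdeal 𝒪) 𝒪]
  {P : Type} [CommRing P] [Algebra 𝒪 P]
  (m : Ideal P) (J : ℕ → Ideal P)

open MvPowerSeries in
theorem exists_limitRing (hm : m.IsMaximal) (hJ0 : J 0 = ⊤) (hJ1 : J 1 = m)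
    (hpow : ∀ n, m ^ n ≤ J n)
    (hstep : ∀ n, J n = J (n + 1) ⊔ m ^ n)
    {d : ℕ} (x : Fin d → P) (hx : ∀ i, x i ∈ m)
    (hgen : ∀ n, ∀ p : P, ∃ q : MvPolynomial (Fin d) 𝒪, p - MvPolynomial.aeval x q ∈ J n) :
    Nonempty (LimitRing 𝒪 P J) := by
  classical
  have hanti' : ∀ n, J (n + 1) ≤ J n := fun n => by
    rw [hstep n]; exact le_sup_left
  have hanti : Antitone J := antitone_nat_of_succ_le hanti'
  have hJm : ∀ n, 1 ≤ n → J n ≤ m := fun n hn => hJ1 ▸ hanti hn
  set ψ : MvPolynomial (Fin d) 𝒪 →ₐ[𝒪] P := MvPolynomial.aeval x with hψ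
  have hvars : ∀ n, (MvPolynomial.idealOfVars (Fin d) 𝒪) ^ n ≤ (J n).comap ψ := by
    intro n
    have h1 : MvPolynomial.idealOfVars (Fin d) 𝒪 ≤ m.comap ψ := by
      rw [MvPolynomial.idealOfVars, Ideal.span_le]
      rintro _ ⟨i, rfl⟩
      show ψ (MvPolynomial.X i) ∈ m
      rw [hψ, MvPolynomial.aeval_X]
      exact hx i
    calc (MvPolynomial.idealOfVars (Fin d) 𝒪) ^ n ≤ (m.comap ψ) ^ n := Ideal.pow_right_mono h1 n
      _ ≤ (m ^ n).comap ψ := Ideal.le_comap_pow ψ n
      _ ≤ (J n).comap ψ := Ideal.comap_mono (hpow n)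
  let S := MvPowerSeries (Fin d) 𝒪
  let π : ∀ n, S →ₐ[𝒪] P ⧸ J n := fun n =>
    (Ideal.quotientMapₐ (J n) ψ (hvars n)).comp ((truncTotalAlgHom (Fin d) 𝒪 n).restrictScalars 𝒪)
  have hπ : ∀ n s, π n s = Ideal.Quotient.mk (J n) (ψ (truncTotal n s)) := fun n s => rfl
  have hπle : ∀ n k, n ≤ k → ∀ s p, π k s = Ideal.Quotient.mk (J k) p →
      π n s = Ideal.Quotient.mk (J n) p := by
    intro n k hnk s p h
    rw [hπ, Ideal.Quotient.eq] at h ⊢
    have h1 := hanti hnk h
    have h2 := hvars n (truncTotal_sub_truncTotal_mem_pow_idealOfVars (le_refl n) hnk s)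
    rw [Ideal.mem_comap, map_sub] at h2
    have := Ideal.add_mem _ h2 h1
    simpa using this
  have hπsurj : ∀ n, Function.Surjective (π n) := by
    intro n y
    obtain ⟨p, rfl⟩ := Ideal.Quotient.mk_surjective y
    obtain ⟨q, hq⟩ := hgen n p
    refine ⟨(q : MvPowerSeries (Fin d) 𝒪), ?_⟩
    rw [hπ, Ideal.Quotient.eq]
    have h2 : truncTotal n (q : MvPowerSeries (Fin d) 𝒪) - q ∈
        (MvPolynomial.idealOfVars (Fin d) 𝒪) ^ n := by
      rw [MvPolynomial.mem_pow_idealOfVars_iff']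
      intro e he
      rw [MvPolynomial.coeff_sub, coeff_truncTotal _ he, MvPolynomial.coeff_coe, sub_self]
    have h3 := hvars n h2
    rw [Ideal.mem_comap, map_sub] at h3
    have := Ideal.sub_mem _ h3 hq
    simpa using this
  -- maximal ideals correspond
  have hmax : ∀ n, 1 ≤ n → (m.map (Ideal.Quotient.mk (J n))).IsMaximal := by
    intro n hn
    exact Ideal.IsMaximal.map_of_surjective_of_ker_le Ideal.Quotient.mk_surjective
      (by simpa using hJm n hn)
  have hcomap : ∀ n, 1 ≤ n → (m.map (Ideal.Quotient.mk (J n))).comap (π n) = maximalIdeal S := by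
    intro n hn
    haveI := hmax n hn
    exact IsLocalRing.eq_maximalIdeal (Ideal.comap_isMaximal_of_surjective (π n) (hπsurj n))
  have hmap : ∀ n, 1 ≤ n → (maximalIdeal S).map (π n) = m.map (Ideal.Quotient.mk (J n)) := by
    intro n hn
    rw [← hcomap n hn, Ideal.map_comap_of_surjective (π n) (hπsurj n)]
  have hker_ge : ∀ n, maximalIdeal S ^ n ≤ RingHom.ker (π n) := by
    intro n
    rcases Nat.eq_zero_or_pos n with rfl | hn
    · intro s _
      have : Subsingleton (P ⧸ J 0) := Ideal.Quotient.subsingleton_iff.mpr hJ0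
      exact Subsingleton.elim _ _
    · intro s hs
      have h1 : π n s ∈ ((maximalIdeal S) ^ n).map (π n) := Ideal.mem_map_of_mem _ hs
      rw [Ideal.map_pow, hmap n hn, ← Ideal.map_pow] at h1
      have h2 : (m ^ n).map (Ideal.Quotient.mk (J n)) = ⊥ := by
        rw [Ideal.map_eq_bot_iff_le_ker, Ideal.mk_ker]
        exact hpow n
      rw [h2] at h1
      exact h1
  have hkeranti : ∀ n k, n ≤ k → RingHom.ker (π k) ≤ RingHom.ker (π n) := by
    intro n k hnk s hs
    have h1 : π k s = Ideal.Quotient.mk (J k) 0 := by rw [map_zero]; exact hs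
    have h2 := hπle n k hnk s 0 h1
    rw [map_zero] at h2
    exact h2
  have hkerstep : ∀ n, ∀ s ∈ RingHom.ker (π n), ∃ s' ∈ RingHom.ker (π (n + 1)),
      s' - s ∈ maximalIdeal S ^ n := by
    intro n s hs
    obtain ⟨p, hp⟩ := Ideal.Quotient.mk_surjective (π (n + 1) s)
    have h1 := hπle n (n + 1) (Nat.le_succ n) s p hp.symm
    have h2 : p ∈ J n := by
      rw [← Ideal.Quotient.eq_zero_iff_mem, ← h1]; exact hs
    rw [hstep n] at h2
    obtain ⟨p1, hp1, p2, hp2, rfl⟩ := Submodule.mem_sup.mp h2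
    have h3 : π (n + 1) s ∈ (m ^ n).map (Ideal.Quotient.mk (J (n + 1))) := by
      rw [← hp, map_add, Ideal.Quotient.eq_zero_iff_mem.mpr hp1, zero_add]
      exact Ideal.mem_map_of_mem _ hp2
    rw [Ideal.map_pow, ← hmap (n + 1) (by omega), ← Ideal.map_pow,
      Ideal.mem_map_iff_of_surjective (π (n + 1)) (hπsurj (n + 1))] at h3
    obtain ⟨t, ht, hts⟩ := h3
    refine ⟨s - t, ?_, ?_⟩
    · rw [RingHom.mem_ker, map_sub, hts, sub_self]
    · have h4 : s - t - s = -t := by ring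
      rw [h4]
      exact neg_mem ht
  let Kinf : Ideal S := ⨅ n, RingHom.ker (π n)
  have hker_le : ∀ n, RingHom.ker (π n) ≤ Kinf ⊔ maximalIdeal S ^ n := by
    intro n s hs
    choose! nxt hnxt1 hnxt2 using hkerstep
    let y : ℕ → S := fun j => Nat.rec s (fun j t => nxt (n + j) t) j
    have hy0 : y 0 = s := rfl
    have hysucc : ∀ j, y (j + 1) = nxt (n + j) (y j) := fun j => rfl
    have hyk : ∀ j, y j ∈ RingHom.ker (π (n + j)) := by
      intro j
      induction j with
      | zero => exact hs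
      | succ j ih => rw [hysucc]; exact hnxt1 (n + j) _ ih
    obtain ⟨L, hL⟩ := exists_limit (maximalIdeal S) y n (fun j => by
      rw [hysucc]; exact hnxt2 (n + j) _ (hyk j))
    have hLK : L ∈ Kinf := by
      refine (Submodule.mem_iInf _).mpr fun j => ?_
      have h1 : L ∈ RingHom.ker (π (n + j)) := by
        have := Ideal.add_mem _ (hker_ge _ (hL j)) (hyk j)
        simpa using this
      exact hkeranti j (n + j) (by omega) h1
    have h2 := hL 0
    rw [hy0] at h2
    have : s = L + (-(L - s)) := by ring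
    rw [this]
    exact Submodule.add_mem_sup hLK (neg_mem h2)
  have hKinf : Kinf ≠ ⊤ := by
    intro h
    have h1 : Kinf ≤ RingHom.ker (π 1) := iInf_le _ 1
    rw [h] at h1
    have h2 : (1 : S) ∈ RingHom.ker (π 1) := h1 trivial
    rw [RingHom.mem_ker, map_one] at h2
    have h3 : (1 : P) ∈ J 1 := by
      rw [← Ideal.Quotient.eq_zero_iff_mem, map_one]; exact h2
    rw [hJ1] at h3
    exact hm.ne_top ((Ideal.eq_top_iff_one m).mpr h3)
  haveI : Nontrivial (S ⧸ Kinf) := Ideal.Quotient.nontrivial_iff.mpr hKinf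
  haveI : IsLocalRing (S ⧸ Kinf) :=
    IsLocalRing.of_surjective' (Ideal.Quotient.mk Kinf) Ideal.Quotient.mk_surjective
  haveI hloc : IsLocalHom (algebraMap S (S ⧸ Kinf)) :=
    IsLocalHom.of_surjective _ Ideal.Quotient.mk_surjective
  haveI : IsAdicComplete (maximalIdeal (S ⧸ Kinf)) (S ⧸ Kinf) :=
    IsLocalRing.isAdicComplete_of_module_finite (𝒪 := S)
  have hmaxR : (maximalIdeal S).map (Ideal.Quotient.mk Kinf) = maximalIdeal (S ⧸ Kinf) := by
    have h1 : (maximalIdeal (S ⧸ Kinf)).comap (Ideal.Quotient.mk Kinf) = maximalIdeal S :=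
      IsLocalRing.maximalIdeal_comap (algebraMap S (S ⧸ Kinf))
    rw [← h1, Ideal.map_comap_of_surjective _ Ideal.Quotient.mk_surjective]
  have hmaxRn : ∀ n, (maximalIdeal (S ⧸ Kinf) ^ n).comap (Ideal.Quotient.mk Kinf) =
      Kinf ⊔ maximalIdeal S ^ n := by
    intro n
    rw [← hmaxR, ← Ideal.map_pow, Ideal.comap_map_of_surjective' _ Ideal.Quotient.mk_surjective,
      Ideal.mk_ker, sup_comm]
  have hkereq : ∀ n, RingHom.ker (π n) = Kinf ⊔ maximalIdeal S ^ n := fun n =>
    le_antisymm (hker_le n) (sup_le (iInf_le _ n) (hker_ge n))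
  obtain ⟨ι, hι⟩ := exists_lift (𝒪 := 𝒪) (T := P) (U := S) (A := S ⧸ Kinf) (fun n => P ⧸ J n)
    (maximalIdeal (S ⧸ Kinf)) (fun n => Ideal.Quotient.mkₐ 𝒪 (J n)) π hπsurj
    (Ideal.Quotient.mkₐ 𝒪 Kinf) (by
      intro n s hs
      have h1 : s ∈ (maximalIdeal (S ⧸ Kinf) ^ n).comap (Ideal.Quotient.mk Kinf) := by
        rw [hmaxRn, ← hkereq]; exact hs
      exact h1) (by
      intro n k hnk p s h
      exact (hπle n k hnk s p h.symm).symm)
  haveI : IsLocalHom (algebraMap 𝒪 (S ⧸ Kinf)) := by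
    have h1 : algebraMap 𝒪 (S ⧸ Kinf) = (algebraMap S (S ⧸ Kinf)).comp (algebraMap 𝒪 S) := rfl
    have h2 : IsLocalHom (algebraMap 𝒪 S) := by
      constructor
      intro a ha
      have h3 : algebraMap 𝒪 S a = MvPowerSeries.C a := rfl
      rw [h3, MvPowerSeries.isUnit_iff_constantCoeff] at ha
      simpa using ha
    rw [h1]
    exact RingHom.isLocalHom_comp _ _
  refine ⟨{ R := S ⧸ Kinf, ι := ι, comap_eq := ?_, dense := ?_ }⟩
  · intro n
    ext p
    rw [Ideal.mem_comap]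
    obtain ⟨s, hs⟩ := hπsurj n (Ideal.Quotient.mk (J n) p)
    have h1 := hι n p s hs.symm
    rw [← Ideal.Quotient.eq_zero_iff_mem (I := J n), ← hs]
    have h2 : ι p ∈ maximalIdeal (S ⧸ Kinf) ^ n ↔
        Ideal.Quotient.mkₐ 𝒪 Kinf s ∈ maximalIdeal (S ⧸ Kinf) ^ n := by
      constructor
      · intro h
        have := Ideal.sub_mem _ h h1
        simpa using this
      · intro h
        have := Ideal.add_mem _ h1 h
        simpa using this
    rw [h2]
    have h3 : Ideal.Quotient.mkₐ 𝒪 Kinf s ∈ maximalIdeal (S ⧸ Kinf) ^ n ↔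
        s ∈ (maximalIdeal (S ⧸ Kinf) ^ n).comap (Ideal.Quotient.mk Kinf) := Iff.rfl
    rw [h3, hmaxRn, ← hkereq]
    rfl
  · intro n r
    obtain ⟨s, rfl⟩ := Ideal.Quotient.mk_surjective r
    obtain ⟨p, hp⟩ := Ideal.Quotient.mk_surjective (π n s)
    refine ⟨p, ?_⟩
    have h1 := hι n p s hp
    rw [← neg_mem_iff]
    simpa using h1

end Construction

end Fermat.Agent.DefRing
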