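import Mathlib
import Fermat.Agent.DefRing.Chain
import Fermat.Agent.DefRing.Limit

/-!
The universal deformation ring.
-/

set_option autoImplicit false
set_option linter.unusedSectionVars false
set_option linter.style.haveILetI false

open scoped TensorProduct

namespace Fermat.Agent.DefRing

open IsLocalRing Module GaloisRep

section

theorem eq_zero_of_forall_mem_pow {R : Type} [CommRing R] [IsLocalRing R]
    [IsHausdorff (maximalIdeal R) R] {z : R}
    (h : ∀ n, z ∈ maximalIdeal R ^ n) : z = 0 := by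
  refine IsHausdorff.haus (I := maximalIdeal R) inferInstance z fun n => ?_
  rw [SModEq.zero, smul_eq_mul, Ideal.mul_top]
  exact h n

theorem isLocalHom_of_map_mem {R S : Type} [CommRing R] [IsLocalRing R] [CommRing S]
    [IsLocalRing S] (f : R →+* S) (h : ∀ x ∈ maximalIdeal R, f x ∈ maximalIdeal S) :
    IsLocalHom f := by
  constructor
  intro a ha
  by_contra h1
  exact h a h1 ha

end

section

variable {𝒪 : Type} [CommRing 𝒪] [IsLocalRing 𝒪]
  {ρbar : ResidualGaloisRep (ResidueField 𝒪)} {F : Frame 𝒪 ρbar}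
  {𝒟 : ∀ ⦃A : Type⦄ [CommRing A] [IsLocalRing A] [Algebra 𝒪 A], GaloisRepAdic A → Prop}

theorem Good.one_mem {J : Ideal (PolyRing 𝒪)} (h : Good F 𝒟 J) (i j : Fin 2) :
    (Xm 𝒪 1 - 1) i j ∈ J := by
  haveI := h.ok.isLocalRing
  obtain ⟨ρ, _, hr⟩ := h.isDef'.real
  have h1 := hr.map_one
  have h2 := congrFun (congrFun h1 i) j
  rw [← Ideal.Quotient.eq_zero_iff_mem, Matrix.sub_apply, map_sub, sub_eq_zero]
  refine h2.trans ?_
  rw [Matrix.one_apply, Matrix.one_apply]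
  split_ifs <;> simp

theorem Good.mul_mem {J : Ideal (PolyRing 𝒪)} (h : Good F 𝒟 J) (σ τ : Γ) (i j : Fin 2) :
    (Xm 𝒪 (σ * τ) - Xm 𝒪 σ * Xm 𝒪 τ) i j ∈ J := by
  haveI := h.ok.isLocalRing
  obtain ⟨ρ, _, hr⟩ := h.isDef'.real
  have h1 := hr.map_mul σ τ
  have h2 := congrFun (congrFun h1 i) j
  rw [← Ideal.Quotient.eq_zero_iff_mem, Matrix.sub_apply, map_sub, sub_eq_zero]
  refine h2.trans ?_
  have h3 := Matrix.map_mul (f := Ideal.Quotient.mk J) (L := Xm 𝒪 σ) (M := Xm 𝒪 τ)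
  exact (congrFun (congrFun h3 i) j).symm

theorem Good.cont {J : Ideal (PolyRing 𝒪)} (h : Good F 𝒟 J) :
    ∃ L : IntermediateField ℚ (AlgebraicClosure ℚ), FiniteDimensional ℚ L ∧
    ∀ σ : Γ, (∀ x ∈ L, σ x = x) → ∀ i j, (Xm 𝒪 σ - 1) i j ∈ J := by
  haveI := h.ok.isLocalRing
  obtain ⟨ρ, _, hr⟩ := h.isDef'.real
  obtain ⟨L, hL, h1⟩ := hr.matCont.exists_eq_one h.ok.isTest
  refine ⟨L, hL, fun σ hσ i j => ?_⟩
  have h2 := congrFun (congrFun (h1 σ hσ) i) j
  rw [← Ideal.Quotient.eq_zero_iff_mem, Matrix.sub_apply, map_sub, sub_eq_zero]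
  refine h2.trans ?_
  rw [Matrix.one_apply, Matrix.one_apply]
  split_ifs <;> simp

end

section

variable {𝒪 : Type} [CommRing 𝒪] [IsLocalRing 𝒪] [Finite (ResidueField 𝒪)]
  {ρbar : ResidualGaloisRep (ResidueField 𝒪)} {F : Frame 𝒪 ρbar}
  {𝒟 : ∀ ⦃A : Type⦄ [CommRing A] [IsLocalRing A] [Algebra 𝒪 A], GaloisRepAdic A → Prop}
  (h𝒟 : IsDeformationCondition 𝒪 𝒟)
  (L : LimitRing 𝒪 (PolyRing 𝒪) (chain F 𝒟))
  (hm : Good F 𝒟 (mIdeal F))
  (hgood : ∀ n, 1 ≤ n → Good F 𝒟 (chain F 𝒟 n))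

include hgood in
theorem mem_chain_of_good {p : PolyRing 𝒪} (h : ∀ J, Good F 𝒟 J → p ∈ J) (n : ℕ) :
    p ∈ chain F 𝒟 n := by
  rcases Nat.eq_zero_or_pos n with rfl | hn
  · rw [chain_zero]; trivial
  · exact h _ (hgood n hn)

include hgood in
theorem map_eq_zero_of_good {p : PolyRing 𝒪} (h : ∀ J, Good F 𝒟 J → p ∈ J) : L.ι p = 0 := by
  refine eq_zero_of_forall_mem_pow fun n => ?_
  have h1 := mem_chain_of_good hgood h n
  rw [← L.comap_eq n] at h1
  exact h1

include hm in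
theorem map_mem_maximalIdeal {p : PolyRing 𝒪} (hp : p ∈ mIdeal F) :
    L.ι p ∈ maximalIdeal L.R := by
  rw [← chain_one hm, ← L.comap_eq 1, pow_one] at hp
  exact hp

include hm in
theorem limit_residue_surjective :
    Function.Surjective (IsLocalRing.residue L.R ∘ algebraMap 𝒪 L.R) := by
  intro x
  obtain ⟨r, rfl⟩ := residue_surjective x
  obtain ⟨p, hp⟩ := L.dense 1 r
  obtain ⟨a, ha⟩ := exists_sub_mem_mIdeal F p
  refine ⟨a, ?_⟩
  rw [pow_one] at hp
  have h1 := map_mem_maximalIdeal L hm ha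
  rw [map_sub, AlgHom.commutes] at h1
  have h2 := Ideal.add_mem _ hp h1
  rw [sub_add_sub_cancel, ← residue_eq_zero_iff, map_sub, sub_eq_zero] at h2
  exact h2.symm

include h𝒟 hm hgood in
theorem isDef_limit : IsDef F 𝒟 (fun σ => (Xm 𝒪 σ).map L.ι) := by
  have hres : ResOK F (fun σ => (Xm 𝒪 σ).map L.ι) := by
    intro σ i j
    have h1 : (MvPolynomial.X (σ, i, j) : PolyRing 𝒪) - algebraMap 𝒪 _ (F.rt σ i j) ∈
        mIdeal F := by
      rw [mem_mIdeal, map_sub, AlgHom.commutes]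
      simp [resHom, homOf]
    have h2 := map_mem_maximalIdeal L hm h1
    rw [map_sub, AlgHom.commutes] at h2
    exact h2
  have hlin : ∀ (s : Finset Γ) (c : Γ → 𝒪) (i j : Fin 2) (J : Ideal (PolyRing 𝒪)),
      lin s c (fun σ => (Xm 𝒪 σ).map (Ideal.Quotient.mkₐ 𝒪 J)) i j =
        Ideal.Quotient.mk J (lin s c (Xm 𝒪) i j) := fun s c i j J =>
    lin_map (Ideal.Quotient.mkₐ 𝒪 J) s c (Xm 𝒪) i j
  have hwp : WellPlaced F (fun σ => (Xm 𝒪 σ).map L.ι) := by
    refine ⟨?_, ?_, ?_⟩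
    · rw [lin_map]
      refine map_eq_zero_of_good L hgood fun J hJ => ?_
      haveI := hJ.ok.isLocalRing
      rw [← Ideal.Quotient.eq_zero_iff_mem, ← hlin]
      exact hJ.isDef'.wp.w1
    · rw [lin_map]
      refine map_eq_zero_of_good L hgood fun J hJ => ?_
      haveI := hJ.ok.isLocalRing
      rw [← Ideal.Quotient.eq_zero_iff_mem, ← hlin]
      exact hJ.isDef'.wp.w2
    · rw [lin_map]
      have h1 : L.ι (lin F.s2 F.c2 (Xm 𝒪) 0 1 - 1) = 0 := by
        refine map_eq_zero_of_good L hgood fun J hJ => ?_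
        haveI := hJ.ok.isLocalRing
        rw [← Ideal.Quotient.eq_zero_iff_mem, map_sub, ← hlin, map_one, sub_eq_zero]
        exact hJ.isDef'.wp.w3
      rw [map_sub, map_one, sub_eq_zero] at h1
      exact h1
  have hone : (fun σ => (Xm 𝒪 σ).map L.ι) 1 = 1 := by
    ext i j
    have h1 := map_eq_zero_of_good L hgood (p := (Xm 𝒪 1 - 1) i j) fun J hJ => hJ.one_mem i j
    rw [Matrix.sub_apply, map_sub, sub_eq_zero] at h1
    refine h1.trans ?_
    rw [Matrix.one_apply, Matrix.one_apply]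
    split_ifs <;> simp
  have hmul : ∀ σ τ, (fun σ => (Xm 𝒪 σ).map L.ι) (σ * τ) =
      (fun σ => (Xm 𝒪 σ).map L.ι) σ * (fun σ => (Xm 𝒪 σ).map L.ι) τ := by
    intro σ τ
    ext i j
    have h1 := map_eq_zero_of_good L hgood (p := (Xm 𝒪 (σ * τ) - Xm 𝒪 σ * Xm 𝒪 τ) i j)
      fun J hJ => hJ.mul_mem σ τ i j
    rw [Matrix.sub_apply, map_sub, sub_eq_zero] at h1
    refine h1.trans ?_
    have h3 := Matrix.map_mul (f := (L.ι : PolyRing 𝒪 →+* L.R)) (L := Xm 𝒪 σ) (M := Xm 𝒪 τ)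
    exact congrFun (congrFun h3 i) j
  have hcont : MatCont (fun σ => (Xm 𝒪 σ).map L.ι) := by
    intro n
    obtain ⟨K, hK, hK1⟩ := (hgood (n + 1) (by omega)).cont
    refine ⟨K, hK, fun σ hσ i j => ?_⟩
    have h1 := hK1 σ hσ i j
    rw [← L.comap_eq (n + 1), Ideal.mem_comap, Matrix.sub_apply, map_sub] at h1
    have h2 := Ideal.pow_le_pow_right (Nat.le_succ n) h1
    have h3 : L.ι ((1 : Matrix (Fin 2) (Fin 2) (PolyRing 𝒪)) i j) =
        (1 : Matrix (Fin 2) (Fin 2) L.R) i j := by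
      rw [Matrix.one_apply, Matrix.one_apply]
      split_ifs <;> simp
    rw [h3] at h2
    exact h2
  obtain ⟨ρ, hρ⟩ := exists_of_matrices _ hone hmul hcont
  refine ⟨hres, hwp, ρ, ?_, hρ⟩
  rw [h𝒟.iff_forall_surjective L.instIsLocalHom (limit_residue_surjective L hm) ρ]
  intro B _ _ _ hB q hq hqs
  obtain ⟨N, hN⟩ := exists_maximalIdeal_pow_eq_bot hB
  have hJ := hgood (N + 1) (by omega)
  haveI := hJ.ok.isLocalRing
  have hker : ∀ p ∈ chain F 𝒟 (N + 1), (q.comp L.ι) p = 0 := by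
    intro p hp
    rw [← L.comap_eq (N + 1)] at hp
    have h1 : (maximalIdeal L.R).map (q : L.R →+* B) ≤ maximalIdeal B := by
      rw [Ideal.map_le_iff_le_comap]
      intro x hx
      exact map_nonunit (q : L.R →+* B) x hx
    have h2 := Ideal.mem_map_of_mem (q : L.R →+* B) (Ideal.mem_comap.mp hp)
    rw [Ideal.map_pow] at h2
    have h3 := Ideal.pow_right_mono h1 (N + 1) h2
    have h4 := Ideal.pow_le_pow_right (Nat.le_succ N) h3
    rw [hN] at h4
    exact h4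
  let q' : PolyRing 𝒪 ⧸ chain F 𝒟 (N + 1) →ₐ[𝒪] B := Ideal.Quotient.liftₐ _ (q.comp L.ι) hker
  have hq' : IsLocalHom (q' : PolyRing 𝒪 ⧸ chain F 𝒟 (N + 1) →+* B) := by
    refine isLocalHom_of_map_mem _ fun x hx => ?_
    obtain ⟨p, rfl⟩ := Ideal.Quotient.mk_surjective x
    have h1 : p ∈ mIdeal F := hJ.ok.mk_mem_iff.mp hx
    exact map_nonunit (q : L.R →+* B) _ (map_mem_maximalIdeal L hm h1)
  obtain ⟨ρJ, hρJ, hrJ⟩ := hJ.isDef'.real
  have h1 := h𝒟.baseChangeAlong hJ.ok.isTest hB q' hq' hρJ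
  refine h𝒟.of_isEquiv hB ?_ h1
  exact (hrJ.baseChange (q' : _ →+* B) hq').isEquiv (hρ.baseChange (q : _ →+* B) hq)

section Universal

variable {A : Type} [CommRing A] [IsLocalRing A] [IsNoetherianRing A]
  [IsAdicComplete (maximalIdeal A) A] [Algebra 𝒪 A] [IsLocalHom (algebraMap 𝒪 A)]
  (hA : Function.Surjective (IsLocalRing.residue A ∘ algebraMap 𝒪 A))

include hA in
theorem finite_quotient_maximalIdeal_pow (n : ℕ) : Finite (A ⧸ maximalIdeal A ^ n) := by
  haveI : Finite (A ⧸ maximalIdeal A) := by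
    have : Finite (ResidueField A) := by
      refine Finite.of_surjective (ResidueField.map (algebraMap 𝒪 A)) fun x => ?_
      obtain ⟨a, ha⟩ := hA x
      exact ⟨residue 𝒪 a, ha⟩
    exact this
  exact Ideal.finite_quotient_pow (IsNoetherian.noetherian _) n

include hA in
theorem quotient_pow_isTest (n : ℕ) (hn : 1 ≤ n) :
    ∃ _ : IsLocalRing (A ⧸ maximalIdeal A ^ n), IsArtinianTestAlgebra 𝒪 (A ⧸ maximalIdeal A ^ n) ∧
      IsLocalHom ((Ideal.Quotient.mkₐ 𝒪 (maximalIdeal A ^ n) : A →ₐ[𝒪] _) :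
        A →+* A ⧸ maximalIdeal A ^ n) := by
  haveI := finite_quotient_maximalIdeal_pow hA n
  haveI : Nontrivial (A ⧸ maximalIdeal A ^ n) := by
    refine Ideal.Quotient.nontrivial_iff.mpr fun h => ?_
    have h1 : maximalIdeal A ^ n ≤ maximalIdeal A := Ideal.pow_le_self (by omega)
    rw [h, top_le_iff] at h1
    exact (maximalIdeal.isMaximal A).ne_top h1
  haveI hloc : IsLocalRing (A ⧸ maximalIdeal A ^ n) :=
    IsLocalRing.of_surjective' (Ideal.Quotient.mk _) Ideal.Quotient.mk_surjective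
  haveI hlh : IsLocalHom (Ideal.Quotient.mk (maximalIdeal A ^ n)) :=
    IsLocalHom.of_surjective _ Ideal.Quotient.mk_surjective
  refine ⟨hloc, ⟨?_, ?_, inferInstance⟩, hlh⟩
  · have h1 : algebraMap 𝒪 (A ⧸ maximalIdeal A ^ n) =
        (Ideal.Quotient.mk (maximalIdeal A ^ n)).comp (algebraMap 𝒪 A) := rfl
    rw [h1]
    exact RingHom.isLocalHom_comp _ _
  · intro x
    obtain ⟨y, rfl⟩ := residue_surjective x
    obtain ⟨z, rfl⟩ := Ideal.Quotient.mk_surjective y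
    obtain ⟨a, ha⟩ := hA (residue A z)
    refine ⟨a, ?_⟩
    have h2 : algebraMap 𝒪 A a - z ∈ maximalIdeal A := by
      rw [← residue_eq_zero_iff, map_sub, sub_eq_zero]
      exact ha
    have h3 := map_nonunit (Ideal.Quotient.mk (maximalIdeal A ^ n)) _ h2
    rw [map_sub, ← residue_eq_zero_iff, map_sub, sub_eq_zero] at h3
    exact h3

include h𝒟 hA in
theorem map_chain_le {ρA : GaloisRepAdic A} (hρA : 𝒟 ρA) {r : Γ → Matrix (Fin 2) (Fin 2) A}
    (hr : Realizes ρA r) (hres : ResOK F r) (hwp : WellPlaced F r) (n : ℕ) {p : PolyRing 𝒪}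
    (hp : p ∈ chain F 𝒟 n) : homOf r p ∈ maximalIdeal A ^ n := by
  rcases Nat.eq_zero_or_pos n with rfl | hn
  · rw [pow_zero, Ideal.one_eq_top]; trivial
  obtain ⟨hloc, htest, hlh⟩ := quotient_pow_isTest hA n hn
  haveI := finite_quotient_maximalIdeal_pow hA n
  set q : A →ₐ[𝒪] A ⧸ maximalIdeal A ^ n := Ideal.Quotient.mkₐ 𝒪 (maximalIdeal A ^ n) with hq
  have h1 := (h𝒟.iff_forall_surjective inferInstance hA ρA).mp hρA htest q hlh
    Ideal.Quotient.mk_surjective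
  have h2 : IsDef F 𝒟 (fun σ => (r σ).map q) :=
    ⟨hres.map q hlh, hwp.map q, _, h1, hr.baseChange (q : A →+* A ⧸ maximalIdeal A ^ n) hlh⟩
  have h3 : (fun σ => (Xm 𝒪 σ).map (q.comp (homOf r))) = (fun σ => (r σ).map q) := by
    have h4 := Xm_map_homOf (𝒪 := 𝒪) r
    funext σ
    have h5 := congrFun h4 σ
    rw [← h5]
    rfl
  rw [← h3] at h2
  have h4 := good_ker h𝒟 htest (q.comp (homOf r)) h2
  have h5 : mIdeal F ^ n ≤ RingHom.ker (q.comp (homOf r)) := by
    have h6 : (mIdeal F).map (homOf r : PolyRing 𝒪 →ₐ[𝒪] A) ≤ maximalIdeal A := by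
      rw [Ideal.map_le_iff_le_comap]
      intro x hx
      refine map_mem_of_mem_mIdeal F _ ?_ hx
      rw [Xm_map_homOf]
      exact hres
    intro x hx
    have h7 := Ideal.mem_map_of_mem (homOf r : PolyRing 𝒪 →ₐ[𝒪] A) hx
    rw [Ideal.map_pow] at h7
    have h8 := Ideal.pow_right_mono h6 n h7
    exact (Ideal.Quotient.eq_zero_iff_mem).mpr h8
  have h6 := chain_le h4 h5 hp
  exact (Ideal.Quotient.eq_zero_iff_mem).mp h6

include h𝒟 hm hgood hA in
theorem universal_property {ρR : GaloisRepAdic L.R}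
    (hρR : Realizes ρR (fun σ => (Xm 𝒪 σ).map L.ι))
    (ρA : GaloisRepAdic A) (hρA : 𝒟 ρA)
    (e : ρA.residual.IsEquiv (ρbar.baseChangeAlong (ResidueField.map (algebraMap 𝒪 A)))) :
    ∃! φ : L.R →ₐ[𝒪] A, ∃ hφ : IsLocalHom (φ : L.R →+* A),
      (ρR.baseChangeAlong (φ : L.R →+* A) hφ).IsEquiv ρA := by
  obtain ⟨r, hr, hres, hwp⟩ := exists_wellPlaced F ρA e
  have hdef := isDef_limit h𝒟 L hm hgood
  have hXr := Xm_map_homOf (𝒪 := 𝒪) r
  set h : PolyRing 𝒪 →ₐ[𝒪] A := homOf r with hh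
  obtain ⟨φ, hφ⟩ := exists_lift (𝒪 := 𝒪) (T := L.R) (U := PolyRing 𝒪) (A := A)
    (fun n => L.R ⧸ maximalIdeal L.R ^ n) (maximalIdeal A)
    (fun n => Ideal.Quotient.mkₐ 𝒪 (maximalIdeal L.R ^ n))
    (fun n => (Ideal.Quotient.mkₐ 𝒪 (maximalIdeal L.R ^ n)).comp L.ι) (by
      intro n y
      obtain ⟨t, rfl⟩ := Ideal.Quotient.mk_surjective y
      obtain ⟨p, hp⟩ := L.dense n t
      refine ⟨p, ?_⟩
      exact ((Ideal.Quotient.eq).mpr hp).symm) h (by
      intro n u hu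
      have h1 : L.ι u ∈ maximalIdeal L.R ^ n := (Ideal.Quotient.eq_zero_iff_mem).mp hu
      have h2 : u ∈ chain F 𝒟 n := by
        rw [← L.comap_eq n]; exact h1
      exact map_chain_le h𝒟 hA hρA hr hres hwp n h2) (by
      intro n k hnk t u htu
      have h1 : t - L.ι u ∈ maximalIdeal L.R ^ k := (Ideal.Quotient.eq).mp htu
      exact (Ideal.Quotient.eq).mpr (Ideal.pow_le_pow_right hnk h1))
  have hφ' : ∀ n t u, t - L.ι u ∈ maximalIdeal L.R ^ n → φ t - h u ∈ maximalIdeal A ^ n :=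
    fun n t u htu => hφ n t u ((Ideal.Quotient.eq).mpr htu)
  have hφι : φ.comp L.ι = h := by
    ext1 s
    rw [← sub_eq_zero]
    refine eq_zero_of_forall_mem_pow fun n => ?_
    refine hφ' n (L.ι (MvPolynomial.X s)) (MvPolynomial.X s) ?_
    rw [sub_self]
    exact Ideal.zero_mem _
  have hφloc : IsLocalHom (φ : L.R →+* A) := by
    refine isLocalHom_of_map_mem _ fun x hx => ?_
    have := hφ' 1 x 0 (by rw [map_zero, sub_zero, pow_one]; exact hx)
    rw [map_zero, sub_zero, pow_one] at this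
    exact this
  have hcomp : ∀ ψ : L.R →ₐ[𝒪] A, (fun σ => ((Xm 𝒪 σ).map L.ι).map ψ) =
      (fun σ => (Xm 𝒪 σ).map (ψ.comp L.ι)) := by
    intro ψ
    funext σ
    rfl
  refine ⟨φ, ⟨hφloc, ?_⟩, ?_⟩
  · have h1 := hρR.baseChange (φ : L.R →+* A) hφloc
    refine h1.isEquiv ?_
    have h2 : (fun σ => ((Xm 𝒪 σ).map L.ι).map (φ : L.R →+* A)) = r := by
      refine (hcomp φ).trans ?_
      rw [hφι]
      exact hXr
    rw [h2]
    exact hr
  · rintro ψ ⟨hψloc, hψ⟩
    have h1 := (hρR.baseChange (ψ : L.R →+* A) hψloc).of_isEquiv hψ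
    have h2 : (fun σ => ((Xm 𝒪 σ).map L.ι).map ψ) = r :=
      wellPlaced_unique F h1 (hdef.res.map ψ hψloc) (hdef.wp.map ψ) hr hres hwp
    have h3 : ψ.comp L.ι = h := by
      apply hom_ext_of_Xm
      rw [hXr, ← hcomp]
      exact h2
    ext t
    rw [← sub_eq_zero]
    refine eq_zero_of_forall_mem_pow fun n => ?_
    obtain ⟨p, hp⟩ := L.dense n t
    have h4 := hφ' n t p hp
    have h5 : ψ t - h p ∈ maximalIdeal A ^ n := by
      rw [← h3]
      have h6 : (maximalIdeal L.R).map (ψ : L.R →+* A) ≤ maximalIdeal A := by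
        rw [Ideal.map_le_iff_le_comap]
        intro x hx
        exact map_nonunit (ψ : L.R →+* A) x hx
      have h7 := Ideal.mem_map_of_mem (ψ : L.R →+* A) hp
      rw [Ideal.map_pow] at h7
      have h8 := Ideal.pow_right_mono h6 n h7
      have h9 : (ψ : L.R →+* A) (t - L.ι p) = ψ t - (ψ.comp L.ι) p := by
        rw [map_sub]; rfl
      rw [h9] at h8
      exact h8
    have := Ideal.sub_mem _ h5 h4
    simpa using this

end Universal

end

section Main

variable (𝒪 : Type) [CommRing 𝒪] [IsDomain 𝒪] [IsDiscreteValuationRing 𝒪]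
    [IsAdicComplete (IsLocalRing.maximalIdeal 𝒪) 𝒪] [Finite (IsLocalRing.ResidueField 𝒪)]
    (ρbar : ResidualGaloisRep (IsLocalRing.ResidueField 𝒪))
    (𝒟 : ∀ ⦃A : Type⦄ [CommRing A] [IsLocalRing A] [Algebra 𝒪 A], GaloisRepAdic A → Prop)

theorem nonempty_deformationRingData
    (habs : ρbar.IsAbsolutelyIrreducible)
    (h𝒟 : GaloisRep.IsDeformationCondition 𝒪 𝒟)
    (hbar : 𝒟 (GaloisRepAdic.ofResidualGaloisRep ρbar))
    (hfin : GaloisRep.TangentFinite 𝒪 ρbar 𝒟) :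
    Nonempty (GaloisRep.DeformationRingData 𝒪 ρbar 𝒟) := by
  obtain ⟨F⟩ := exists_frame 𝒪 ρbar habs
  have hm := good_mIdeal (F := F) h𝒟 hbar
  obtain ⟨d, x, hx, hgen⟩ := exists_gens (F := F) h𝒟 hbar hfin
  have hgood : ∀ n, 1 ≤ n → Good F 𝒟 (chain F 𝒟 n) := fun n hn =>
    good_chain h𝒟 hm (MvPolynomial.aeval x) hgen hn
  obtain ⟨L⟩ := exists_limitRing (𝒪 := 𝒪) (mIdeal F) (chain F 𝒟) (mIdeal_isMaximal F)
    chain_zero (chain_one hm) pow_le_chain (chain_step h𝒟 hgood) x hx (by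
      intro n p
      rcases Nat.eq_zero_or_pos n with rfl | hn
      · exact ⟨0, by rw [chain_zero]; trivial⟩
      · exact hgen _ (hgood n hn) p)
  have hdef := isDef_limit h𝒟 L hm hgood
  obtain ⟨ρR, hρR, hr⟩ := hdef.real
  exact ⟨{ R := L.R
           residue_surjective := limit_residue_surjective L hm
           absIrr := habs
           ρ := ρR
           isOfType := hρR
           residual_isEquiv := residual_isEquiv_of_resOK F hr hdef.res
           universal := fun A _ _ _ _ _ _ hA ρA hρA e =>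
             universal_property h𝒟 L hm hgood hA hr ρA hρA e }⟩

end Main

end Fermat.Agent.DefRing
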